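import Fermat.Agent.S32.Defs
import Fermat.Agent.ES.TrunkX
import Fermat.Agent.S19.Alg.CloSub

set_option autoImplicit false
set_option linter.unusedSectionVars false
set_option linter.unusedVariables false

noncomputable section

namespace Fermat.Agent.S32Lib

open IsLocalRing CuspForm
open Fermat.Agent.S19Lib Fermat.Agent.S53Lib Fermat.Agent.S31Lib
open Fermat.Agent.ESLib (TT0 IsESData redM)

open ModularCurve Fermat.Agent.ESLib Fermat.Agent.S18Lib

/-! ## (BR) the trunk is the torsion of `J₀(N)` -/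

open AlgebraicCurve Fermat.Agent.FFLib Fermat.Agent.S24Lib in
/-- `x` is the class of `(1/m) div f` -/
def BRCl (N m : ℕ) (f : FB N) (x : JZero N) : Prop :=
  ∃ D : Divisor.degZero (K := Qb) (F := FB N),
    (∀ P : Place Qb (FB N), (m : ℤ) * (D : Divisor Qb (FB N)) P = P.ord f) ∧ x = Pic0.mk D

section BRCl

open AlgebraicCurve Fermat.Agent.FFLib Fermat.Agent.S24Lib

variable {N : ℕ} [NeZero N] {m : ℕ}

theorem BRCl.exists (hm : 0 < m) {f : FB N} (hf : IsKum N m f) : ∃ x, BRCl N m f x := by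
  have hF := isFF_FB N
  let D : Divisor Qb (FB N) := (divOf Qb f).mapRange (fun a => a / (m : ℤ)) (by simp)
  have hD : ∀ P : Place Qb (FB N), (m : ℤ) * D P = P.ord f := by
    intro P
    show (m : ℤ) * ((divOf Qb f).mapRange (fun a => a / (m : ℤ)) (by simp) P) = _
    rw [Finsupp.mapRange_apply, divOf_apply hF]
    exact Int.mul_ediv_cancel' (hf.2 P)
  have hdeg : Divisor.degree D = 0 := by
    have h1 : (m : ℤ) • D = divOf Qb f := by
      ext P
      rw [Finsupp.smul_apply, smul_eq_mul, hD, divOf_apply hF]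
    have h2 := congrArg Divisor.degree h1
    rw [map_zsmul, degree_divOf hF, smul_eq_mul] at h2
    rcases mul_eq_zero.mp h2 with h | h
    · omega
    · exact h
  exact ⟨_, ⟨D, hdeg⟩, hD, rfl⟩

theorem BRCl.unique (hm : 0 < m) {f : FB N} {x x' : JZero N} (h : BRCl N m f x)
    (h' : BRCl N m f x') : x = x' := by
  obtain ⟨D, hD, rfl⟩ := h
  obtain ⟨D', hD', rfl⟩ := h'
  congr 1
  apply Subtype.ext
  ext P
  have h1 := hD P
  rw [← hD' P] at h1
  exact mul_left_cancel₀ (by exact_mod_cast hm.ne') h1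

theorem BRCl.mul {f f' : FB N} {x x' : JZero N} (hf : f ≠ 0) (hf' : f' ≠ 0) (h : BRCl N m f x)
    (h' : BRCl N m f' x') : BRCl N m (f * f') (x + x') := by
  obtain ⟨D, hD, rfl⟩ := h
  obtain ⟨D', hD', rfl⟩ := h'
  refine ⟨D + D', fun P => ?_, rfl⟩
  rw [AddSubgroup.coe_add, Finsupp.add_apply, mul_add, hD, hD', P.ord_mul hf hf']

theorem BRCl.pow_self {g : FB N} (hg : g ≠ 0) : BRCl N m (g ^ m) 0 := by
  have hF := isFF_FB N
  refine ⟨⟨divOf Qb g, degree_divOf hF g⟩, fun P => ?_, ?_⟩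
  · show (m : ℤ) * divOf Qb g P = _
    rw [divOf_apply hF, ← zpow_natCast, Place.ord_zpow]
  · symm
    rw [Pic0.mk, QuotientAddGroup.eq_zero_iff]
    exact ⟨g, hg, fun P => divOf_apply hF g P⟩

theorem BRCl.torsion {f : FB N} {x : JZero N} (hf : f ≠ 0) (h : BRCl N m f x) :
    (m : ℤ) • x = 0 := by
  obtain ⟨D, hD, rfl⟩ := h
  show Pic0.mk ((m : ℤ) • D) = 0
  rw [Pic0.mk, QuotientAddGroup.eq_zero_iff]
  refine ⟨f, hf, fun P => ?_⟩
  show ((m : ℤ) • (D : Divisor Qb (FB N))) P = _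
  rw [Finsupp.smul_apply, smul_eq_mul, hD]

theorem BRCl.eq_pow (hm : 0 < m) {f : FB N} (hf : f ≠ 0) (h : BRCl N m f 0) :
    ∃ g : FB N, g ≠ 0 ∧ f = g ^ m := by
  have hF := isFF_FB N
  obtain ⟨D, hD, h0⟩ := h
  have h1 : Divisor.IsPrincipal (D : Divisor Qb (FB N)) :=
    (QuotientAddGroup.eq_zero_iff D).mp h0.symm
  obtain ⟨g, hg, hgD⟩ := h1
  have hgm : g ^ m ≠ 0 := pow_ne_zero _ hg
  have h2 : f / g ^ m ∈ (algebraMap Qb (FB N)).range := by
    rw [← mem_L_zero_iff hF, mem_L_iff]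
    intro P
    right
    rw [div_eq_mul_inv, P.ord_mul hf (inv_ne_zero hgm), Place.ord_inv, ← zpow_natCast,
      Place.ord_zpow, ← hD, hgD]
    simp
  obtain ⟨c, hc⟩ := h2
  obtain ⟨c', hc'⟩ := IsAlgClosed.exists_pow_nat_eq c hm
  have hc0 : c' ≠ 0 := by
    rintro rfl
    rw [zero_pow hm.ne'] at hc'
    rw [← hc', map_zero] at hc
    exact div_ne_zero hf hgm hc.symm
  refine ⟨algebraMap Qb (FB N) c' * g, mul_ne_zero ((map_ne_zero _).mpr hc0) hg, ?_⟩
  rw [mul_pow, ← map_pow, hc', hc, div_mul_cancel₀ _ hgm]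

theorem BRCl.gal {f : FB N} {x : JZero N} (h : BRCl N m f x) (σ : GalQ) :
    BRCl N m (ESLib.gal N σ f) (σ • x) := by
  obtain ⟨D, hD, rfl⟩ := h
  refine ⟨SemilinearAut.degZeroSMulHom (arithmeticGalois (modularFunctionFieldFull N) σ) D,
    fun P => ?_, rfl⟩
  rw [SemilinearAut.coe_degZeroSMulHom, SemilinearAut.divisor_smul_apply, hD]
  have h1 := SemilinearAut.ord_smul (arithmeticGalois (modularFunctionFieldFull N) σ)
    ((arithmeticGalois (modularFunctionFieldFull N) σ)⁻¹ • P) f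
  rw [smul_inv_smul] at h1
  exact h1.symm

end BRCl

/-- (BR1) the Kummer map: `v ↦` class of `(1/m) div f`, `Kap b m f v` -/
theorem exists_kappa {N : ℕ} [NeZero N] {r : ℕ} {b : Module.Basis (Fin r) ℤ (EP N ℤ)}
    (H : TrunkHyp N) {m : ℕ} (hm : 0 < m) :
    ∃ κ : (Fin r → ZMod m) →+ ↥(Submodule.torsionBy ℤ (JZero N) (m : ℤ)),
      Function.Injective κ ∧
      ∀ (σ : GalQ) (v : Fin r → ZMod m),
        κ ((P.rhoM b H hm σ).mulVec v) = torsAct N (m : ℤ) σ (κ v) := by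
  have hex : ∀ v : Fin r → ZMod m, ∃ x : JZero N, ∃ f : FB N, P.Kap b m f v ∧ BRCl N m f x := by
    intro v
    obtain ⟨f, hf⟩ := P.Kap.exists (b := b) H hm v
    obtain ⟨x, hx⟩ := BRCl.exists hm (hf.isKum H hm)
    exact ⟨x, f, hf, hx⟩
  have huniq : ∀ (v : Fin r → ZMod m) (f f' : FB N) (x x' : JZero N), P.Kap b m f v →
      P.Kap b m f' v → BRCl N m f x → BRCl N m f' x' → x = x' := by
    intro v f f' x x' hf hf' hx hx'
    have h1 := hf.mul H hm (hf'.inv H hm)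
    rw [add_neg_cancel] at h1
    obtain ⟨g, hg, hfg⟩ := h1.eq_pow H hm
    have hf'0 := hf'.ne_zero H hm
    have h2 : f = g ^ m * f' := by
      rw [← hfg, mul_assoc, inv_mul_cancel₀ hf'0, mul_one]
    have h3 := (BRCl.pow_self (m := m) hg).mul (pow_ne_zero _ hg) hf'0 hx'
    rw [← h2, zero_add] at h3
    exact hx.unique hm h3
  choose κ₀ F hK hC using hex
  have hspec : ∀ (v : Fin r → ZMod m) (f : FB N) (x : JZero N), P.Kap b m f v → BRCl N m f x →
      κ₀ v = x := fun v f x hf hx => huniq v _ f _ x (hK v) hf (hC v) hx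
  have htors : ∀ v, κ₀ v ∈ Submodule.torsionBy ℤ (JZero N) (m : ℤ) := by
    intro v
    rw [Submodule.mem_torsionBy_iff]
    exact (hC v).torsion ((hK v).ne_zero H hm)
  have hadd : ∀ v w, κ₀ (v + w) = κ₀ v + κ₀ w := by
    intro v w
    exact hspec _ _ _ ((hK v).mul H hm (hK w))
      ((hC v).mul ((hK v).ne_zero H hm) ((hK w).ne_zero H hm) (hC w))
  have hzero : κ₀ 0 = 0 := by
    have := hadd 0 0
    rw [add_zero] at this
    exact left_eq_add.mp this
  refine ⟨{ toFun := fun v => ⟨κ₀ v, htors v⟩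
            map_zero' := Subtype.ext hzero
            map_add' := fun v w => Subtype.ext (hadd v w) }, ?_, ?_⟩
  · rw [injective_iff_map_eq_zero]
    intro v hv
    have hv' : κ₀ v = 0 := congrArg Subtype.val hv
    have h1 := hC v
    rw [hv'] at h1
    obtain ⟨g, hg, hfg⟩ := h1.eq_pow hm ((hK v).ne_zero H hm)
    have h2 := hK v
    rw [hfg] at h2
    exact h2.unique H hm (P.Kap.pow_self H hm hg)
  · intro σ v
    apply Subtype.ext
    exact hspec _ _ _ (P.rhoM_spec H hm σ (hK v)) ((hC v).gal σ)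

/-- (BR2) -/
theorem exists_esData_ord (N p : ℕ) [NeZero N] [Fact p.Prime] (h : TorsOrd N p) :
    ∃ (r : ℕ) (Θ : TT0 N →+* Matrix (Fin r) (Fin r) ℤ)
      (ρ : (n : ℕ) → GalQ →* Matrix (Fin r) (Fin r) (ZMod (p ^ n))), IsESData N p r Θ ρ ∧
      ∀ n : ℕ, HasOrd p (Fin r → ZMod (p ^ n)) (fun σ v => (ρ n σ).mulVec v) := by
  have H : TrunkHyp N := (trunkHyp0 N).toTrunkHyp
  obtain ⟨r, b, Θ₀, hinj, hTr⟩ := H.theta
  refine ⟨r, P.ThM b Θ₀, fun n => P.rhoM b H (pow_pos (Fact.out : p.Prime).pos n),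
    P.isESData p H hinj hTr, ?_⟩
  intro n
  obtain ⟨κ, hκ, hact⟩ := exists_kappa (b := b) H (pow_pos (Fact.out : p.Prime).pos n)
  have hn := h n
  have hcast : ((p : ℤ)) ^ n = ((p ^ n : ℕ) : ℤ) := by push_cast; rfl
  rw [hcast] at hn
  exact HasOrd.of_injective κ hκ hact hn

end Fermat.Agent.S32Lib
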