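import Fermat.Agent.S32.CoreDefs

set_option autoImplicit false

namespace Fermat.Agent.S32Lib

variable {Γ 𝒜 X Rb : Type} [Group Γ] [CommRing 𝒜] [AddCommGroup X] [Module 𝒜 X] [CommRing Rb]

/-- (SQ) -/
theorem CoreHyp.subQ_of_units [Finite X] (C : CoreHyp Γ 𝒜 X Rb) (e b c : Module.End 𝒜 X)
    (h : C.Units e b c) :
    SubQ Γ X (Fin 2 → Rb) (fun g v => C.a g v) (fun g w => (C.rb g).mulVec w) := by
  obtain ⟨hee, heb, hbe, hce, hec, hbc, hcb, hg⟩ := h
  have hee' : ∀ x, e (e x) = e x := fun x => LinearMap.congr_fun hee x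
  have heb' : ∀ x, e (b x) = b x := fun x => LinearMap.congr_fun heb x
  have hbe' : ∀ x, b (e x) = 0 := fun x => LinearMap.congr_fun hbe x
  have hce' : ∀ x, c (e x) = c x := fun x => LinearMap.congr_fun hce x
  have hec' : ∀ x, e (c x) = 0 := fun x => LinearMap.congr_fun hec x
  have hbc' : ∀ x, b (c x) = e x := fun x => LinearMap.congr_fun hbc x
  have hcb' : ∀ x, c (b x) = x - e x := fun x => LinearMap.congr_fun hcb x
  have hcc' : ∀ x, c (c x) = 0 := by
    intro x
    rw [← hce' (c x), hec', map_zero]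
  obtain ⟨s, ⟨en⟩⟩ := Finite.exists_equiv_fin X
  let φ : 𝒜 × 𝒜 →+ (Fin s → X) :=
    { toFun := fun p i => p.1 • e (en.symm i) + p.2 • c (e (en.symm i))
      map_zero' := by funext i; simp
      map_add' := by
        intro p q
        funext i
        simp only [Prod.fst_add, Prod.snd_add, add_smul, Pi.add_apply]
        abel }
  have hφ : ∀ p i, φ p i = p.1 • e (en.symm i) + p.2 • c (e (en.symm i)) := fun _ _ => rfl
  let ψ : 𝒜 × 𝒜 →+ (Fin 2 → Rb) :=
    { toFun := fun p => ![C.β p.1, C.β p.2]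
      map_zero' := by
        funext i
        fin_cases i <;> simp
      map_add' := by
        intro p q
        funext i
        fin_cases i <;> simp }
  have hψ : ∀ p, ψ p = ![C.β p.1, C.β p.2] := fun _ => rfl
  -- annihilators
  have hann : ∀ α : 𝒜, (∀ x, α • e x = 0) → C.β α = 0 := by
    intro α hα
    apply C.faith
    intro x
    have h1 : x = e x + c (e (b x)) := by rw [heb', hcb']; abel
    rw [h1, smul_add, hα, zero_add, ← map_smul, hα, map_zero]
  have hker : ∀ p, φ p = 0 → ψ p = 0 := by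
    intro p hp
    have h1 : ∀ x, p.1 • e x + p.2 • c (e x) = 0 := by
      intro x
      have := congrFun hp (en x)
      rw [hφ, en.symm_apply_apply] at this
      exact this
    have h2 : ∀ x, p.1 • e x = 0 := by
      intro x
      have := congrArg e (h1 x)
      rwa [map_add, map_smul, map_smul, hee', hec', smul_zero, add_zero, map_zero] at this
    have h3 : ∀ x, p.2 • e x = 0 := by
      intro x
      have := congrArg b (h1 x)
      rwa [map_add, map_smul, map_smul, hbe', hbc', hee', smul_zero, zero_add, map_zero] at this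
    rw [hψ, hann _ h2, hann _ h3]
    funext i
    fin_cases i <;> simp
  have hwd : ∀ p q, φ p = φ q → ψ p = ψ q := by
    intro p q hpq
    have := hker (p - q) (by rw [map_sub, hpq, sub_self])
    rw [map_sub] at this
    exact sub_eq_zero.mp this
  -- the action
  have hact : ∀ (g : Γ) (p : 𝒜 × 𝒜), ∃ q : 𝒜 × 𝒜, (fun i => C.a g (φ p i)) = φ q ∧
      ψ q = (C.rb g).mulVec (ψ p) := by
    intro g p
    obtain ⟨α₁, α₂, α₃, α₄, ha, hr⟩ := hg g
    refine ⟨(p.1 * α₁ + p.2 * α₂, p.1 * α₃ + p.2 * α₄), ?_, ?_⟩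
    · funext i
      rw [hφ, hφ, ha]
      set x := en.symm i
      simp only [LinearMap.add_apply, LinearMap.smul_apply, LinearMap.sub_apply,
        Module.End.one_apply, map_add, map_smul, hee', hbe', hec', hbc', hcc', hce', smul_zero,
        sub_self, sub_zero, add_zero, zero_add]
      simp only [smul_add, smul_smul, add_smul]
      simp only [mul_comm]
      abel
    · rw [hψ, hψ, hr]
      funext i
      fin_cases i
      · simp [Matrix.mulVec, dotProduct, Fin.sum_univ_two]
        ring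
      · simp [Matrix.mulVec, dotProduct, Fin.sum_univ_two]
        ring
  let f : φ.range →+ (Fin 2 → Rb) :=
    AddMonoidHom.mk' (fun v => ψ (Classical.choose v.2)) (by
      intro v w
      rw [← map_add]
      apply hwd
      rw [map_add, Classical.choose_spec v.2, Classical.choose_spec w.2,
        Classical.choose_spec (v + w).2]
      rfl)
  have hf : ∀ (p : 𝒜 × 𝒜) (hp : φ p ∈ φ.range), f ⟨φ p, hp⟩ = ψ p := by
    intro p hp
    apply hwd
    exact Classical.choose_spec hp
  refine ⟨s, φ.range, ?_, f, ?_, ?_⟩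
  · rintro g _ ⟨p, rfl⟩
    obtain ⟨q, hq, -⟩ := hact g p
    exact ⟨q, hq.symm⟩
  · intro y
    obtain ⟨α, hα⟩ := C.β_surj (y 0)
    obtain ⟨γ, hγ⟩ := C.β_surj (y 1)
    refine ⟨⟨φ (α, γ), AddMonoidHom.mem_range.mpr ⟨_, rfl⟩⟩, ?_⟩
    rw [hf, hψ]
    funext i
    fin_cases i
    · exact hα
    · exact hγ
  · intro g v
    obtain ⟨w, hw⟩ := v
    obtain ⟨p, rfl⟩ := AddMonoidHom.mem_range.mp hw
    obtain ⟨q, hq, hq2⟩ := hact g p
    have h1 : f ⟨φ p, hw⟩ = ψ p := hf p hw
    show f ⟨fun i => C.a g (φ p i), _⟩ = (C.rb g).mulVec (f ⟨φ p, hw⟩)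
    rw [h1, ← hq2, ← hf q (AddMonoidHom.mem_range.mpr ⟨q, rfl⟩)]
    congr 1
    exact Subtype.ext hq

end Fermat.Agent.S32Lib
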