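import Fermat.Agent.S32.CoreUnits
import Fermat.Agent.S32.CoreSubQ

set_option autoImplicit false

namespace Fermat.Agent.S32Lib

variable {Γ 𝒜 X Rb : Type} [Group Γ] [CommRing 𝒜] [AddCommGroup X] [Module 𝒜 X] [CommRing Rb]

theorem CoreHyp.subQ_of_nil [Finite X] (C : CoreHyp Γ 𝒜 X Rb) (hnil : C.Nil) :
    SubQ Γ X (Fin 2 → Rb) (fun g v => C.a g v) (fun g w => (C.rb g).mulVec w) := by
  obtain ⟨e, b, c, h⟩ := C.exists_units hnil
  exact C.subQ_of_units e b c h

/-- pulling back a subquotient along an equivariant surjection -/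
theorem SubQ.of_surjective {Γ X X' Y : Type} [AddCommGroup X] [AddCommGroup X'] [AddCommGroup Y]
    {actX : Γ → X → X} {actX' : Γ → X' → X'} {actY : Γ → Y → Y} (π : X →+ X')
    (hπ : Function.Surjective π) (hact : ∀ g v, π (actX g v) = actX' g (π v))
    (h : SubQ Γ X' Y actX' actY) : SubQ Γ X Y actX actY := by
  obtain ⟨s, N', hN', f', hf', heq⟩ := h
  let PP : (Fin s → X) →+ (Fin s → X') := π.compLeft (Fin s)
  have hPP : ∀ v i, PP v i = π (v i) := fun _ _ => rfl
  have hPPact : ∀ g v, PP (fun i => actX g (v i)) = fun i => actX' g (PP v i) := by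
    intro g v
    funext i
    rw [hPP, hact, hPP]
  refine ⟨s, N'.comap PP, ?_, f'.comp (PP.addSubgroupComap N'), ?_, ?_⟩
  · intro g v hv
    show PP _ ∈ N'
    rw [hPPact]
    exact hN' g _ hv
  · intro y
    obtain ⟨⟨v', hv'⟩, rfl⟩ := hf' y
    choose v hv using fun i => hπ (v' i)
    have h1 : PP v = v' := funext hv
    refine ⟨⟨v, ?_⟩, ?_⟩
    · show PP v ∈ N'
      rw [h1]; exact hv'
    · show f' ⟨PP v, _⟩ = f' ⟨v', hv'⟩
      congr 1
      exact Subtype.ext h1
  · intro g v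
    have h1 := heq g ⟨PP v.1, v.2⟩
    refine Eq.trans ?_ h1
    show f' ⟨PP _, _⟩ = f' ⟨_, _⟩
    congr 1
    exact Subtype.ext (hPPact g v.1)

/-- the submodules `J^n X` are stable -/
theorem LOC_le_comap (I : Ideal 𝒜) (φ : Module.End 𝒜 X) :
    (I • (⊤ : Submodule 𝒜 X)) ≤ (I • (⊤ : Submodule 𝒜 X)).comap φ := by
  rw [← Submodule.map_le_iff_le_comap, Submodule.map_smul'']
  exact Submodule.smul_mono le_rfl le_top

/-- the induced action on `X / I X` -/
noncomputable def CoreHyp.aQ (C : CoreHyp Γ 𝒜 X Rb) (I : Ideal 𝒜) :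
    Γ →* Module.End 𝒜 (X ⧸ (I • (⊤ : Submodule 𝒜 X))) where
  toFun g := Submodule.mapQ _ _ (C.a g) (LOC_le_comap I (C.a g))
  map_one' := by
    apply Submodule.linearMap_qext
    ext v
    simp
  map_mul' := by
    intro g h
    apply Submodule.linearMap_qext
    ext v
    simp

theorem CoreHyp.aQ_mk (C : CoreHyp Γ 𝒜 X Rb) (I : Ideal 𝒜) (g : Γ) (v : X) :
    C.aQ I g (Submodule.Quotient.mk v) = Submodule.Quotient.mk (C.a g v) := rfl

/-- the induced `CoreHyp` on `X / I X` -/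
noncomputable def CoreHyp.quot (C : CoreHyp Γ 𝒜 X Rb) (I : Ideal 𝒜) (r : 𝒜) (hr : C.β r = 1)
    (hrI : ∀ v ∈ I • (⊤ : Submodule 𝒜 X), r • v = 0) :
    CoreHyp Γ 𝒜 (X ⧸ (I • (⊤ : Submodule 𝒜 X))) Rb where
  a := C.aQ I
  β := C.β
  rb := C.rb
  d := C.d
  t := C.t
  β_surj := C.β_surj
  ch := by
    intro g
    apply Submodule.linearMap_qext
    ext v
    have h1 := LinearMap.congr_fun (C.ch g) v
    simp only [LinearMap.add_apply, LinearMap.smul_apply, Module.End.one_apply] at h1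
    simp only [LinearMap.comp_apply, Submodule.mkQ_apply, LinearMap.add_apply,
      LinearMap.smul_apply, Module.End.one_apply, CoreHyp.aQ_mk]
    rw [← Submodule.Quotient.mk_smul, ← Submodule.Quotient.mk_add, h1,
      Submodule.Quotient.mk_smul]
  tr := C.tr
  det := C.det
  span := C.span
  faith := by
    intro x hx
    have h1 : C.β (r * x) = 0 := by
      apply C.faith
      intro v
      rw [mul_smul]
      apply hrI
      have := hx (Submodule.Quotient.mk v)
      rw [← Submodule.Quotient.mk_smul, Submodule.Quotient.mk_eq_zero] at this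
      exact this
    rwa [map_mul, hr, one_mul] at h1
  two := C.two

/-- (LOC) the core theorem -/
theorem CoreHyp.subQ [Finite X] (C : CoreHyp Γ 𝒜 X Rb) :
    SubQ Γ X (Fin 2 → Rb) (fun g v => C.a g v) (fun g w => (C.rb g).mulVec w) := by
  set J := RingHom.ker C.β with hJ
  have hart : IsArtinian 𝒜 X := isArtinian_of_finite
  let F : ℕ →o (Submodule 𝒜 X)ᵒᵈ :=
    { toFun := fun n => OrderDual.toDual (J ^ n • (⊤ : Submodule 𝒜 X))
      monotone' := by
        intro m n hmn
        show J ^ n • (⊤ : Submodule 𝒜 X) ≤ J ^ m • (⊤ : Submodule 𝒜 X)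
        exact Submodule.smul_mono (Ideal.pow_le_pow_right hmn) le_rfl }
  obtain ⟨n, hn⟩ := IsArtinian.monotone_stabilizes F
  have hn1 : J ^ n • (⊤ : Submodule 𝒜 X) = J ^ (n + 1) • (⊤ : Submodule 𝒜 X) :=
    hn (n + 1) (Nat.le_succ n)
  have hle : J ^ n • (⊤ : Submodule 𝒜 X) ≤ J • (J ^ n • (⊤ : Submodule 𝒜 X)) := by
    rw [← mul_smul, ← pow_succ', ← hn1]
  have hfg : (J ^ n • (⊤ : Submodule 𝒜 X)).FG := Submodule.FG.of_finite
  obtain ⟨r, hr1, hr2⟩ :=
    Submodule.exists_sub_one_mem_and_smul_eq_zero_of_fg_of_le_smul J _ hfg hle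
  have hβr : C.β r = 1 := by
    have : C.β (r - 1) = 0 := hr1
    rw [map_sub, map_one] at this
    exact sub_eq_zero.mp this
  let C' := C.quot (J ^ n) r hβr hr2
  have hnil : C'.Nil := by
    refine ⟨n, ?_⟩
    intro x hx v
    obtain ⟨v, rfl⟩ := Submodule.Quotient.mk_surjective _ v
    rw [← Submodule.Quotient.mk_smul, Submodule.Quotient.mk_eq_zero]
    exact Submodule.smul_mem_smul hx trivial
  have : Finite (X ⧸ (J ^ n • (⊤ : Submodule 𝒜 X))) :=
    Finite.of_surjective _ (Submodule.mkQ_surjective _)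
  have h1 := C'.subQ_of_nil hnil
  exact SubQ.of_surjective (Submodule.mkQ (J ^ n • (⊤ : Submodule 𝒜 X))).toAddMonoidHom
    (Submodule.mkQ_surjective _) (fun g v => rfl) h1

end Fermat.Agent.S32Lib
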