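import Fermat.Agent.S32.CoreDefs
import Fermat.Agent.S19.Alg.CloQuot
import Fermat.Agent.S19.Alg.CloProd

set_option autoImplicit false

namespace Fermat.Agent.S32Lib

open Fermat.Agent.S19Lib

/-- Hopf orders pass to subquotients of powers -/
theorem hasOrd_of_subQ {ℓ : ℕ} [Fact ℓ.Prime] {X Y : Type} [AddCommGroup X] [AddCommGroup Y]
    [Finite X] {actX : GalQ → X → X} {actY : GalQ → Y → Y} (h : SubQ GalQ X Y actX actY)
    (hX : HasOrd ℓ X actX) : HasOrd ℓ Y actY := by
  obtain ⟨s, N, hN, f, hf, hfe⟩ := h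
  have h1 := hX.pi s
  have h2 : HasOrd ℓ N (fun σ v => ⟨fun i => actX σ ((v : Fin s → X) i), hN σ v v.2⟩) :=
    HasOrd.of_injective N.subtype Subtype.val_injective (fun σ x => rfl) h1
  exact HasOrd.of_surjective f hf (fun σ x => hfe σ x) h2

end Fermat.Agent.S32Lib
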