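import Fermat.Agent.S32.Defs
import Fermat.Agent.S19.Alg.CloSub

set_option autoImplicit false
set_option linter.unusedSectionVars false
set_option linter.unusedVariables false

noncomputable section

namespace Fermat.Agent.S32Lib

open IsLocalRing CuspForm
open Fermat.Agent.S19Lib Fermat.Agent.S53Lib Fermat.Agent.S31Lib
open Fermat.Agent.ESLib (TT0 IsESData redM)

/-! ## (TV) -/

/-- coordinates modulo `I` -/
def TV_g {A : Type} [CommRing A] {V : Type} [AddCommGroup V] [Module A V]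
    (e : V ≃ₗ[A] (Fin 2 → A)) (I : Ideal A) : V →ₗ[A] (Fin 2 → A ⧸ I) :=
  ((Ideal.Quotient.mkₐ A I).toLinearMap.compLeft (Fin 2)).comp e.toLinearMap

theorem TV_g_apply {A : Type} [CommRing A] {V : Type} [AddCommGroup V] [Module A V]
    (e : V ≃ₗ[A] (Fin 2 → A)) (I : Ideal A) (v : V) (i : Fin 2) :
    TV_g e I v i = Ideal.Quotient.mk I (e v i) := rfl

theorem TV_le_ker {A : Type} [CommRing A] {V : Type} [AddCommGroup V] [Module A V]
    (e : V ≃ₗ[A] (Fin 2 → A)) (I : Ideal A) :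
    I • (⊤ : Submodule A V) ≤ LinearMap.ker (TV_g e I) := by
  rw [Submodule.smul_le]
  intro a ha v _
  rw [LinearMap.mem_ker]
  funext i
  rw [TV_g_apply, map_smul, Pi.smul_apply, smul_eq_mul, Pi.zero_apply,
    Ideal.Quotient.eq_zero_iff_mem]
  exact Ideal.mul_mem_right _ _ ha

theorem TV_ker_le {A : Type} [CommRing A] {V : Type} [AddCommGroup V] [Module A V]
    (e : V ≃ₗ[A] (Fin 2 → A)) (I : Ideal A) :
    LinearMap.ker (TV_g e I) ≤ I • (⊤ : Submodule A V) := by
  intro v hv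
  rw [LinearMap.mem_ker] at hv
  have h1 : e v ∈ I • (⊤ : Submodule A (Fin 2 → A)) := by
    apply mem_smul_top_pi
    intro i
    rw [← Ideal.Quotient.eq_zero_iff_mem, ← TV_g_apply, hv]
    rfl
  have h2 : e.symm (e v) ∈ (I • (⊤ : Submodule A (Fin 2 → A))).map e.symm.toLinearMap :=
    Submodule.mem_map_of_mem h1
  rw [Submodule.map_smul'', LinearEquiv.symm_apply_apply] at h2
  exact Submodule.smul_mono le_rfl le_top h2

/-- the injection `V / I V → (A / I) ^ 2` -/
def TV_f {A : Type} [CommRing A] {V : Type} [AddCommGroup V] [Module A V]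
    (e : V ≃ₗ[A] (Fin 2 → A)) (I : Ideal A) :
    (V ⧸ (I • (⊤ : Submodule A V))) →ₗ[A] (Fin 2 → A ⧸ I) :=
  (I • (⊤ : Submodule A V)).liftQ (TV_g e I) (TV_le_ker e I)

theorem TV_f_injective {A : Type} [CommRing A] {V : Type} [AddCommGroup V] [Module A V]
    (e : V ≃ₗ[A] (Fin 2 → A)) (I : Ideal A) : Function.Injective (TV_f e I) := by
  rw [← LinearMap.ker_eq_bot]
  exact Submodule.ker_liftQ_eq_bot _ _ _ (TV_ker_le e I)

theorem hasOrd_level {A : Type} [CommRing A] [IsLocalRing A] (ρA : GaloisRepAdic A)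
    (r' : GQ →* M2 A) (hc : MatCont r') (he : ρA.IsEquiv (ofMat r' hc)) (I : Ideal A)
    {p : ℕ} [Fact p.Prime]
    (h : HasOrd p (Fin 2 → A ⧸ I) (fun σ v => (mapMat (Ideal.Quotient.mk I) r' σ).mulVec v)) :
    HasOrd p (ρA.V ⧸ (I • (⊤ : Submodule A ρA.V))) (fun σ x => ρA.levelAction I σ x) := by
  obtain ⟨e⟩ := he
  let e' : ρA.V ≃ₗ[A] (Fin 2 → A) := e.toLinearEquiv
  refine HasOrd.of_injective (TV_f e' I).toAddMonoidHom (TV_f_injective e' I) ?_ h
  intro σ x
  obtain ⟨v, rfl⟩ := Submodule.Quotient.mk_surjective _ x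
  show TV_f e' I (ρA.levelAction I σ (Submodule.Quotient.mk v)) =
    (mapMat (Ideal.Quotient.mk I) r' σ).mulVec (TV_f e' I (Submodule.Quotient.mk v))
  have h1 : ρA.levelAction I σ (Submodule.Quotient.mk v) = Submodule.Quotient.mk (ρA.ρ σ v) := rfl
  have h2 : ∀ w : ρA.V, TV_f e' I (Submodule.Quotient.mk w) = TV_g e' I w := fun w => rfl
  rw [h1, h2, h2]
  funext i
  rw [TV_g_apply]
  have h3 : e' (ρA.ρ σ v) = (r' σ).mulVec (e' v) := e.map_apply σ v
  rw [h3]
  show Ideal.Quotient.mk I (∑ j, r' σ i j * e' v j) =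
    ∑ j, mapMat (Ideal.Quotient.mk I) r' σ i j * TV_g e' I v j
  rw [map_sum]
  refine Finset.sum_congr rfl (fun j _ => ?_)
  rw [map_mul]
  rfl

theorem finite_level {A : Type} [CommRing A] [IsLocalRing A] (ρA : GaloisRepAdic A)
    (I : Ideal A) (hI : Finite (A ⧸ I)) : Finite (ρA.V ⧸ (I • (⊤ : Submodule A ρA.V))) := by
  have e : ρA.V ≃ₗ[A] (Fin 2 → A) :=
    (Module.finBasisOfFinrankEq A ρA.V ρA.finrank_eq).equivFun
  exact Finite.of_injective _ (TV_f_injective e I)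

end Fermat.Agent.S32Lib
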