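import Fermat.Agent.S32.Defs
import Fermat.Agent.S19.Alg.CloQuot
import Fermat.Agent.S19.Alg.CloProd

set_option autoImplicit false
set_option linter.unusedSectionVars false
set_option linter.unusedVariables false

noncomputable section

namespace Fermat.Agent.S32Lib

open IsLocalRing CuspForm
open Fermat.Agent.S19Lib Fermat.Agent.S53Lib Fermat.Agent.S31Lib
open Fermat.Agent.ESLib (TT0 IsESData redM)

/-! ## (XO) -/

theorem hasOrd_X {T : Type} [CommRing T] {p r m : ℕ} [Fact p.Prime] [Finite (Tm T p m)]
    (ρm : GQ →* Matrix (Fin r) (Fin r) (ZMod (p ^ m)))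
    (h : HasOrd p (Fin r → ZMod (p ^ m)) (fun σ v => (ρm σ).mulVec v)) :
    HasOrd p (Fin r → Tm T p m) (fun σ v => (aX T m ρm σ).mulVec v) := by
  classical
  haveI : NeZero (p ^ m) := ⟨pow_ne_zero _ (Fact.out : p.Prime).ne_zero⟩
  let s := Nat.card (Tm T p m)
  let τ : Fin s ≃ Tm T p m := (Finite.equivFin (Tm T p m)).symm
  let F : (Fin s → Fin r → ZMod (p ^ m)) →+ (Fin r → Tm T p m) :=
    { toFun := fun v i => ∑ k, zTm T p m (v k i) * τ k
      map_zero' := by funext i; simp
      map_add' := by
        intro v w; funext i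
        simp only [Pi.add_apply, map_add, add_mul, Finset.sum_add_distrib] }
  have hF : ∀ v i, F v i = ∑ k, zTm T p m (v k i) * τ k := fun _ _ => rfl
  refine HasOrd.of_surjective F ?_ ?_ (h.pi s)
  · intro w
    refine ⟨fun k i => if τ k = w i then 1 else 0, ?_⟩
    funext i
    rw [hF]
    rw [Finset.sum_eq_single (τ.symm (w i))]
    · simp
    · intro k _ hk
      have : τ k ≠ w i := fun h' => hk (by rw [← h', Equiv.symm_apply_apply])
      simp [this]
    · intro h'; exact absurd (Finset.mem_univ _) h'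
  · intro σ v
    funext i
    rw [hF]
    show _ = ∑ j, aX T m ρm σ i j * F v j
    have h1 : ∀ j, aX T m ρm σ i j = zTm T p m (ρm σ i j) := fun j => rfl
    simp only [hF, h1, Finset.mul_sum]
    rw [Finset.sum_comm]
    refine Finset.sum_congr rfl (fun k _ => ?_)
    show zTm T p m (∑ j, ρm σ i j * v k j) * τ k = _
    rw [map_sum, Finset.sum_mul]
    refine Finset.sum_congr rfl (fun j _ => ?_)
    rw [map_mul, mul_assoc]

end Fermat.Agent.S32Lib
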