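import Fermat.Agent.S32.Inst
import Fermat.Agent.S32.XOrd
import Fermat.Agent.S32.Transport
import Fermat.Agent.S32.Bridge
import Fermat.Agent.S32.SubQOrd
import Fermat.Agent.S32.CoreLoc
import Fermat.Agent.S19.Alg.Final

set_option autoImplicit false
set_option linter.unusedSectionVars false
set_option linter.unusedVariables false

noncomputable section

namespace Fermat.Agent.S32Lib

open IsLocalRing CuspForm
open Fermat.Agent.S19Lib Fermat.Agent.S53Lib Fermat.Agent.S31Lib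
open Fermat.Agent.ESLib (TT0 IsESData redM)


variable {N : ℕ} [NeZero N] {S : Finset ℕ} {p : ℕ}
  {𝒪 : Type} [CommRing 𝒪] [IsDomain 𝒪] [IsDiscreteValuationRing 𝒪]
  [IsAdicComplete (IsLocalRing.maximalIdeal 𝒪) 𝒪]
  {θ : CuspForm.heckeAlgebra N 2 (↑S : Set ℕ) →+* IsLocalRing.ResidueField 𝒪}
  {T : Type} [CommRing T] [IsLocalRing T] [IsNoetherianRing T]
  [IsAdicComplete (IsLocalRing.maximalIdeal T) T] [Algebra 𝒪 T] [IsLocalHom (algebraMap 𝒪 T)]
  [Module.Finite 𝒪 T] [Module.Free 𝒪 T]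

/-- S32 from the geometric part of S19 -/
theorem isFlatAt_of_torsOrd [Finite (ResidueField 𝒪)] [CharZero 𝒪] (hp : p.Prime) (hp2 : p ≠ 2)
    (hp𝒪 : (p : 𝒪) ∈ maximalIdeal 𝒪) (hpS : p ∈ S)
    (hNS : ∀ q : ℕ, q.Prime → q ∣ N → q ∈ S) (hT : TorsOrd N p)
    (H : CuspForm.HeckeGaloisRepDatum N (↑S : Set ℕ) 𝒪 θ T) :
    H.ρ.IsFlatAt p := by
  haveI : Fact p.Prime := ⟨hp⟩
  refine ⟨finite_residueField_T H.residue_surjective, fun I hI => ?_⟩
  obtain ⟨r, Θ, ρ, hES, hord⟩ := exists_esData_ord N p hT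
  obtain ⟨r', hc, he⟩ := exists_ofMat_isEquiv H.ρ
  obtain ⟨m, 𝒜, _, _, C, hCa, hCr⟩ := exists_coreHyp hp hp2 hp𝒪 hpS hNS hES H r' hc he I hI
  haveI : Finite (Tm T p m) := finite_Tm (𝒪 := 𝒪) hp hp𝒪 m
  have h1 := hasOrd_X (T := T) (ρ m) (hord m)
  have h2 := C.subQ
  have h3 : HasOrd p (Fin 2 → T ⧸ I) (fun σ w => (C.rb σ).mulVec w) := by
    refine hasOrd_of_subQ h2 ?_
    have : (fun (g : GQ) (v : Fin r → Tm T p m) => C.a g v) =
        fun σ v => (aX T m (ρ m) σ).mulVec v := by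
      funext g v; exact hCa g v
    rw [this]
    exact h1
  have h4 : HasOrd p (Fin 2 → T ⧸ I)
      (fun σ v => (mapMat (Ideal.Quotient.mk I) r' σ).mulVec v) := by
    have : (fun (σ : GQ) (w : Fin 2 → T ⧸ I) => (C.rb σ).mulVec w) =
        fun σ v => (mapMat (Ideal.Quotient.mk I) r' σ).mulVec v := by
      funext g v; rw [hCr g]
    rw [← this]
    exact h3
  have h5 := hasOrd_level H.ρ r' hc he I h4
  haveI := finite_level H.ρ I hI
  exact h5.isFlatGrp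

end Fermat.Agent.S32Lib
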