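import Fermat.Agent.S32.CoreDefs
import Fermat.Agent.S33.ZCheb
import Fermat.Agent.S33.ZCyclo
import Fermat.Prelude.Def_ModularCurve_ArithmeticGalois

/-!
# S32 library: arithmetic definitions
-/

set_option autoImplicit false

noncomputable section

namespace Fermat.Agent.S32Lib

open Fermat.Agent.S19Lib Fermat.Agent.S53Lib
open ModularCurve

/-- the Galois action on `J₀(N)[m]` -/
def torsAct (N : ℕ) [NeZero N] (m : ℤ) (σ : GalQ) (x : ↥(Submodule.torsionBy ℤ (JZero N) m)) :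
    ↥(Submodule.torsionBy ℤ (JZero N) m) :=
  ⟨σ • (x : JZero N), by
    have h := x.2
    rw [Submodule.mem_torsionBy_iff] at h ⊢
    have h2 := (DistribSMul.toAddMonoidHom (JZero N) σ).map_zsmul m (x : JZero N)
    have h3 : σ • (m • (x : JZero N)) = m • (σ • (x : JZero N)) := h2
    rw [← h3, h, smul_zero]⟩

/-- the output of the geometric part of S19 -/
def TorsOrd (N : ℕ) [NeZero N] (p : ℕ) : Prop :=
  ∀ k : ℕ, HasOrd p ↥(Submodule.torsionBy ℤ (JZero N) ((p : ℤ) ^ k)) (torsAct N ((p : ℤ) ^ k))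

/-- `T / p ^ m` -/
abbrev Tm (T : Type) [CommRing T] (p m : ℕ) : Type := T ⧸ Ideal.span {((p : T)) ^ m}

/-- `ℤ / p ^ m → T / p ^ m` -/
def zTm (T : Type) [CommRing T] (p m : ℕ) : ZMod (p ^ m) →+* Tm T p m :=
  (Ideal.Quotient.lift (Ideal.span {((p ^ m : ℕ) : ℤ)})
    ((Ideal.Quotient.mk (Ideal.span {((p : T)) ^ m})).comp (Int.castRingHom T)) (by
      intro a ha
      obtain ⟨b, rfl⟩ := Ideal.mem_span_singleton.mp ha
      rw [RingHom.comp_apply, Ideal.Quotient.eq_zero_iff_mem]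
      refine Ideal.mem_span_singleton.mpr ⟨(b : T), ?_⟩
      simp)).comp (Int.quotientSpanNatEquivZMod (p ^ m)).symm.toRingHom

/-- the trunk action on `(T / p ^ m) ^ r` -/
def aX (T : Type) [CommRing T] {p r : ℕ} (m : ℕ)
    (ρm : GQ →* Matrix (Fin r) (Fin r) (ZMod (p ^ m))) :
    GQ →* Matrix (Fin r) (Fin r) (Tm T p m) :=
  ((zTm T p m).mapMatrix : Matrix (Fin r) (Fin r) (ZMod (p ^ m)) →+* _).toMonoidHom.comp ρm

end Fermat.Agent.S32Lib
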