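import Fermat.Agent.S19
import Fermat.Agent.S32.Defs

/-!
# S32: `TorsOrd N p` from the geometric part of S19
-/

set_option autoImplicit false
set_option synthInstance.maxHeartbeats 400000

namespace Fermat.Agent.S32Lib

open ModularCurve
open AlgebraicCurve Fermat.Agent.S19Lib Fermat.Agent.S18Lib Fermat.Agent.FFLib Fermat.Agent.S19

theorem torsOrd (p : ℕ) [NeZero p] (ℓ : ℕ) [Fact ℓ.Prime] (hℓp : ¬ ℓ ∣ p) : TorsOrd p ℓ := by
  intro k
  have hℓ : ℓ.Prime := Fact.out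
  obtain ⟨M, hM, hℓM, hbase, Φ, hΦσ, hΦinj⟩ := exists_level_map p hℓ hℓp
  obtain ⟨A, hA⟩ := Fermat.Agent.FrobLib.exists_liesOverPrime hℓ
  have hn : 0 < ℓ ^ k := pow_pos hℓ.pos k
  have hcast : ((ℓ ^ k : ℕ) : ℤ) = (ℓ : ℤ) ^ k := by push_cast; rfl
  have hrep := isIntRep_good M hℓM hbase A hA (ℓ ^ k) hn
  have hmem : ∀ x : Submodule.torsionBy ℤ (JZero p) ((ℓ : ℤ) ^ k),
      Φ (x : JZero p) ∈ (Submodule.torsionBy ℤ (JZero M) ((ℓ ^ k : ℕ) : ℤ)).toAddSubgroup := by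
    intro x
    have hx : ((ℓ : ℤ) ^ k) • (x : JZero p) = 0 := (Submodule.mem_torsionBy_iff _ _).mp x.2
    show Φ (x : JZero p) ∈ Submodule.torsionBy ℤ (JZero M) ((ℓ ^ k : ℕ) : ℤ)
    rw [Submodule.mem_torsionBy_iff, hcast, ← map_zsmul, hx, map_zero]
  let φ : Submodule.torsionBy ℤ (JZero p) ((ℓ : ℤ) ^ k) →+
      (Submodule.torsionBy ℤ (JZero M) ((ℓ ^ k : ℕ) : ℤ)).toAddSubgroup :=
    { toFun := fun x => ⟨Φ (x : JZero p), hmem x⟩
      map_zero' := Subtype.ext (map_zero Φ)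
      map_add' := fun x y => Subtype.ext (map_add Φ _ _) }
  have hφinj : Function.Injective φ := by
    rw [injective_iff_map_eq_zero]
    intro x hx
    have h1 : Φ (x : JZero p) = 0 := congrArg Subtype.val hx
    have h2 : ((ℓ ^ k : ℕ) : ℤ) • (x : JZero p) = 0 := by
      rw [hcast]; exact (Submodule.mem_torsionBy_iff _ _).mp x.2
    exact Subtype.ext (hΦinj (ℓ ^ k) _ hn h2 h1)
  have hrep' : IsIntRep A (Submodule.torsionBy ℤ (JZero p) ((ℓ : ℤ) ^ k))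
      (fun σ x => ⟨σ • (x : JZero p), smul_mem_torsionBy p _ σ x x.2⟩) :=
    hrep.of_injective φ hφinj (fun σ x => Subtype.ext (hΦσ σ _))
  have hfin : Finite (Submodule.torsionBy ℤ (JZero p) ((ℓ : ℤ) ^ k)) := by
    rw [← hcast]; exact finite_torsion p (ℓ ^ k) hn
  exact IsIntRep.hasOrd A (not_inv_mem hℓ A hA) hrep'

end Fermat.Agent.S32Lib
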