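import Fermat.Agent.S19.Alg.Defs

/-!
# S32 library: the abstract core (definitions)

`CoreHyp Γ 𝒜 X Rb` : a finite `𝒜[Γ]`-module `X` satisfying the Cayley-Hamilton relation
`g + d(g) g⁻¹ = t(g)`, a surjection `β : 𝒜 → Rb` killing the annihilator of `X`, and a
representation `rb : Γ → GL₂(Rb)` with trace `β ∘ t`, determinant `β ∘ d`, spanning `M₂(Rb)`.
Conclusion (`SubQ`): `Rb²` is a `Γ`-equivariant quotient of a `Γ`-stable subgroup of `X^s`.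
-/

set_option autoImplicit false

namespace Fermat.Agent.S32Lib

/-- `Y` is an equivariant quotient of a stable subgroup of a power of `X` -/
def SubQ (Γ X Y : Type) [AddCommGroup X] [AddCommGroup Y] (actX : Γ → X → X)
    (actY : Γ → Y → Y) : Prop :=
  ∃ (s : ℕ) (N : AddSubgroup (Fin s → X)) (hN : ∀ g, ∀ v ∈ N, (fun i => actX g (v i)) ∈ N)
    (f : N →+ Y), Function.Surjective f ∧
      ∀ (g : Γ) (v : N), f ⟨fun i => actX g ((v : Fin s → X) i), hN g v v.2⟩ = actY g (f v)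

/-- the hypotheses of the core theorem -/
structure CoreHyp (Γ 𝒜 X Rb : Type) [Group Γ] [CommRing 𝒜] [AddCommGroup X] [Module 𝒜 X]
    [CommRing Rb] where
  a : Γ →* Module.End 𝒜 X
  β : 𝒜 →+* Rb
  rb : Γ →* Matrix (Fin 2) (Fin 2) Rb
  d : Γ →* 𝒜ˣ
  t : Γ → 𝒜
  β_surj : Function.Surjective β
  ch : ∀ g, a g + ((d g : 𝒜ˣ) : 𝒜) • a g⁻¹ = t g • (1 : Module.End 𝒜 X)
  tr : ∀ g, β (t g) = (rb g).trace
  det : ∀ g, β ((d g : 𝒜ˣ) : 𝒜) = (rb g).det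
  span : Submodule.span Rb (Set.range rb) = ⊤
  faith : ∀ x : 𝒜, (∀ v : X, x • v = 0) → β x = 0
  two : IsUnit (2 : 𝒜)

/-- a power of `ker β` kills `X` -/
def CoreHyp.Nil {Γ 𝒜 X Rb : Type} [Group Γ] [CommRing 𝒜] [AddCommGroup X] [Module 𝒜 X]
    [CommRing Rb] (C : CoreHyp Γ 𝒜 X Rb) : Prop :=
  ∃ n : ℕ, ∀ x ∈ (RingHom.ker C.β) ^ n, ∀ v : X, x • v = 0

/-- matrix units in `End X` adapted to `rb` -/
def CoreHyp.Units {Γ 𝒜 X Rb : Type} [Group Γ] [CommRing 𝒜] [AddCommGroup X] [Module 𝒜 X]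
    [CommRing Rb] (C : CoreHyp Γ 𝒜 X Rb) (e b c : Module.End 𝒜 X) : Prop :=
  e * e = e ∧ e * b = b ∧ b * e = 0 ∧ c * e = c ∧ e * c = 0 ∧ b * c = e ∧ c * b = 1 - e ∧
    ∀ g, ∃ α₁ α₂ α₃ α₄ : 𝒜, C.a g = α₁ • e + α₂ • b + α₃ • c + α₄ • (1 - e) ∧
      C.rb g = !![C.β α₁, C.β α₂; C.β α₃, C.β α₄]

/-- an algebra with an involution of "degree two" over `𝒜`, and a surjection onto `M₂(Rb)` with
nilpotent kernel -/
structure StarData (𝒜 𝔹 Rb : Type) [CommRing 𝒜] [Ring 𝔹] [Algebra 𝒜 𝔹] [CommRing Rb] where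
  β : 𝒜 →+* Rb
  Ψ : 𝔹 →+* Matrix (Fin 2) (Fin 2) Rb
  st : 𝔹 → 𝔹
  τ : 𝔹 → 𝒜
  Ψ_surj : Function.Surjective Ψ
  Ψ_smul : ∀ (c : 𝒜) (x : 𝔹), Ψ (c • x) = β c • Ψ x
  st_mul : ∀ x y, st (x * y) = st y * st x
  st_add : ∀ x y, st (x + y) = st x + st y
  st_smul : ∀ (c : 𝒜) (x : 𝔹), st (c • x) = c • st x
  st_st : ∀ x, st (st x) = x
  add_st : ∀ x, x + st x = algebraMap 𝒜 𝔹 (τ x)
  Ψ_st : ∀ x, Ψ (st x) = (Ψ x).adjugate
  nil : ∃ n : ℕ, ∀ c ∈ (RingHom.ker β) ^ n, algebraMap 𝒜 𝔹 c = 0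
  two : IsUnit (2 : 𝒜)

end Fermat.Agent.S32Lib
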