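import Fermat.Agent.S32.MatUnits

set_option autoImplicit false

namespace Fermat.Agent.S32Lib

variable {Γ 𝒜 X Rb : Type} [Group Γ] [CommRing 𝒜] [AddCommGroup X] [Module 𝒜 X] [CommRing Rb]

section amb

variable (𝒜 X Rb) in
/-- the ambient algebra -/
abbrev Amb : Type := Module.End 𝒜 X × (Module.End 𝒜 X)ᵐᵒᵖ × Matrix (Fin 2) (Fin 2) Rb

/-- the anti-involution of the ambient algebra -/
def ambSt (p : Amb 𝒜 X Rb) : Amb 𝒜 X Rb :=
  (p.2.1.unop, MulOpposite.op p.1, p.2.2.adjugate)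

theorem ambSt_mul (p q : Amb 𝒜 X Rb) : ambSt (p * q) = ambSt q * ambSt p := by
  refine Prod.ext rfl (Prod.ext rfl ?_)
  exact Matrix.adjugate_mul_distrib _ _

theorem BD_adjugate_add (z w : Matrix (Fin 2) (Fin 2) Rb) :
    (z + w).adjugate = z.adjugate + w.adjugate := by
  rw [Matrix.adjugate_fin_two, Matrix.adjugate_fin_two, Matrix.adjugate_fin_two]
  ext i j
  fin_cases i <;> fin_cases j <;> simp [add_comm]

theorem BD_adjugate_adjugate (z : Matrix (Fin 2) (Fin 2) Rb) : z.adjugate.adjugate = z := by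
  rw [Matrix.adjugate_fin_two, Matrix.adjugate_fin_two]
  ext i j
  fin_cases i <;> fin_cases j <;> simp

theorem BD_add_adjugate (z : Matrix (Fin 2) (Fin 2) Rb) :
    z + z.adjugate = z.trace • (1 : Matrix (Fin 2) (Fin 2) Rb) := by
  rw [Matrix.adjugate_fin_two, Matrix.trace_fin_two]
  ext i j
  fin_cases i <;> fin_cases j <;> simp [add_comm]

theorem ambSt_add (p q : Amb 𝒜 X Rb) : ambSt (p + q) = ambSt p + ambSt q := by
  refine Prod.ext rfl (Prod.ext rfl ?_)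
  exact BD_adjugate_add _ _

theorem ambSt_ambSt (p : Amb 𝒜 X Rb) : ambSt (ambSt p) = p := by
  refine Prod.ext rfl (Prod.ext rfl ?_)
  exact BD_adjugate_adjugate _

variable [Algebra 𝒜 Rb]

theorem ambSt_smul (c : 𝒜) (p : Amb 𝒜 X Rb) : ambSt (c • p) = c • ambSt p := by
  refine Prod.ext rfl (Prod.ext rfl ?_)
  show (c • p.2.2).adjugate = c • p.2.2.adjugate
  rw [Matrix.adjugate_fin_two, Matrix.adjugate_fin_two]
  ext i j
  fin_cases i <;> fin_cases j <;> simp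

end amb

/-- the group inside the ambient algebra -/
def CoreHyp.gam (C : CoreHyp Γ 𝒜 X Rb) : Γ →* Amb 𝒜 X Rb where
  toFun g := (C.a g, MulOpposite.op (((C.d g : 𝒜ˣ) : 𝒜) • C.a g⁻¹), C.rb g)
  map_one' := by
    refine Prod.ext (map_one _) (Prod.ext ?_ (map_one _))
    simp
  map_mul' := by
    intro g h
    refine Prod.ext (map_mul _ _ _) (Prod.ext ?_ (map_mul _ _ _))
    show MulOpposite.op (((C.d (g * h) : 𝒜ˣ) : 𝒜) • C.a (g * h)⁻¹)
      = MulOpposite.op (((C.d g : 𝒜ˣ) : 𝒜) • C.a g⁻¹) * MulOpposite.op (((C.d h : 𝒜ˣ) : 𝒜) • C.a h⁻¹)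
    rw [← MulOpposite.op_mul, mul_inv_rev, map_mul, map_mul, smul_mul_smul_comm, Units.val_mul,
      mul_comm]

section main

variable [Algebra 𝒜 Rb]

/-- the image of the group algebra -/
def CoreHyp.BB (C : CoreHyp Γ 𝒜 X Rb) : Subalgebra 𝒜 (Amb 𝒜 X Rb) :=
  Algebra.adjoin 𝒜 (Set.range C.gam)

theorem CoreHyp.gam_mem (C : CoreHyp Γ 𝒜 X Rb) (g : Γ) : C.gam g ∈ C.BB :=
  Algebra.subset_adjoin ⟨g, rfl⟩

theorem CoreHyp.BB_toSubmodule (C : CoreHyp Γ 𝒜 X Rb) :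
    Subalgebra.toSubmodule C.BB = Submodule.span 𝒜 (Set.range C.gam) := by
  rw [CoreHyp.BB, Algebra.adjoin_eq_span]
  congr 1
  have : Set.range C.gam = (MonoidHom.mrange C.gam : Set (Amb 𝒜 X Rb)) := rfl
  rw [this, Submonoid.closure_eq]

theorem CoreHyp.BB_induction (C : CoreHyp Γ 𝒜 X Rb) {P : Amb 𝒜 X Rb → Prop}
    (hg : ∀ g, P (C.gam g)) (h0 : P 0) (hadd : ∀ p q, P p → P q → P (p + q))
    (hsmul : ∀ (c : 𝒜) p, P p → P (c • p)) (p : Amb 𝒜 X Rb) (hp : p ∈ C.BB) : P p := by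
  have hp' : p ∈ Submodule.span 𝒜 (Set.range C.gam) := by
    rw [← C.BB_toSubmodule]; exact hp
  clear hp
  induction hp' using Submodule.span_induction with
  | mem x hx => obtain ⟨g, rfl⟩ := hx; exact hg g
  | zero => exact h0
  | add x y _ _ hx hy => exact hadd x y hx hy
  | smul c x _ hx => exact hsmul c x hx

variable (C : CoreHyp Γ 𝒜 X Rb) (hβ : ∀ c, C.β c = algebraMap 𝒜 Rb c)

include hβ

theorem CoreHyp.ambSt_gam (g : Γ) :
    ambSt (C.gam g) = ((C.d g : 𝒜ˣ) : 𝒜) • C.gam g⁻¹ := by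
  refine Prod.ext rfl (Prod.ext ?_ ?_)
  · show MulOpposite.op (C.a g)
      = ((C.d g : 𝒜ˣ) : 𝒜) • MulOpposite.op (((C.d g⁻¹ : 𝒜ˣ) : 𝒜) • C.a g⁻¹⁻¹)
    rw [← MulOpposite.op_smul, smul_smul, inv_inv, map_inv, Units.mul_inv, one_smul]
  · show (C.rb g).adjugate = ((C.d g : 𝒜ˣ) : 𝒜) • C.rb g⁻¹
    have h1 : C.rb g * C.rb g⁻¹ = 1 := by rw [← map_mul, mul_inv_cancel, map_one]
    have h2 : (C.rb g).adjugate = (C.rb g).adjugate * (C.rb g * C.rb g⁻¹) := by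
      rw [h1, mul_one]
    rw [h2, ← mul_assoc, Matrix.adjugate_mul, smul_mul_assoc, one_mul, ← C.det, hβ,
      algebraMap_smul]

theorem CoreHyp.ambSt_mem (p : Amb 𝒜 X Rb) (hp : p ∈ C.BB) : ambSt p ∈ C.BB := by
  refine C.BB_induction (P := fun p => ambSt p ∈ C.BB) ?_ ?_ ?_ ?_ p hp
  · intro g
    rw [C.ambSt_gam hβ]
    exact C.BB.smul_mem (C.gam_mem _) _
  · have : ambSt (0 : Amb 𝒜 X Rb) = 0 := by
      refine Prod.ext rfl (Prod.ext rfl ?_)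
      exact Matrix.adjugate_zero
    rw [this]
    exact C.BB.zero_mem
  · intro p q hp hq
    rw [ambSt_add]
    exact C.BB.add_mem hp hq
  · intro c p hp
    rw [ambSt_smul]
    exact C.BB.smul_mem hp c

theorem CoreHyp.exists_tau (p : Amb 𝒜 X Rb) (hp : p ∈ C.BB) :
    ∃ t : 𝒜, p + ambSt p = algebraMap 𝒜 (Amb 𝒜 X Rb) t := by
  refine C.BB_induction (P := fun p => ∃ t : 𝒜, p + ambSt p = algebraMap 𝒜 (Amb 𝒜 X Rb) t)
    ?_ ?_ ?_ ?_ p hp
  · intro g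
    refine ⟨C.t g, ?_⟩
    refine Prod.ext ?_ (Prod.ext ?_ ?_)
    · show C.a g + ((C.d g : 𝒜ˣ) : 𝒜) • C.a g⁻¹ = algebraMap 𝒜 (Module.End 𝒜 X) (C.t g)
      rw [C.ch, Algebra.algebraMap_eq_smul_one]
    · show MulOpposite.op (((C.d g : 𝒜ˣ) : 𝒜) • C.a g⁻¹) + MulOpposite.op (C.a g)
        = MulOpposite.op (algebraMap 𝒜 (Module.End 𝒜 X) (C.t g))
      rw [← MulOpposite.op_add, add_comm, C.ch, Algebra.algebraMap_eq_smul_one]
    · show C.rb g + (C.rb g).adjugate = algebraMap 𝒜 (Matrix (Fin 2) (Fin 2) Rb) (C.t g)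
      rw [BD_add_adjugate, ← C.tr, hβ, algebraMap_smul, Algebra.algebraMap_eq_smul_one]
  · refine ⟨0, ?_⟩
    have : ambSt (0 : Amb 𝒜 X Rb) = 0 := by
      refine Prod.ext rfl (Prod.ext rfl ?_)
      exact Matrix.adjugate_zero
    rw [this, map_zero, add_zero]
  · rintro p q ⟨t, ht⟩ ⟨u, hu⟩
    refine ⟨t + u, ?_⟩
    rw [ambSt_add, map_add, ← ht, ← hu]
    abel
  · rintro c p ⟨t, ht⟩
    refine ⟨c * t, ?_⟩
    rw [ambSt_smul, ← smul_add, ht, map_mul, Algebra.smul_def]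

theorem CoreHyp.exists_mem_BB (z : Matrix (Fin 2) (Fin 2) Rb) : ∃ p ∈ C.BB, p.2.2 = z := by
  have hz : z ∈ Submodule.span Rb (Set.range C.rb) := by rw [C.span]; trivial
  induction hz using Submodule.span_induction with
  | mem x hx =>
    obtain ⟨g, rfl⟩ := hx
    exact ⟨C.gam g, C.gam_mem g, rfl⟩
  | zero => exact ⟨0, C.BB.zero_mem, rfl⟩
  | add x y _ _ hx hy =>
    obtain ⟨p, hp, rfl⟩ := hx
    obtain ⟨q, hq, rfl⟩ := hy
    exact ⟨p + q, C.BB.add_mem hp hq, rfl⟩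
  | smul r x _ hx =>
    obtain ⟨p, hp, rfl⟩ := hx
    obtain ⟨c, rfl⟩ := C.β_surj r
    refine ⟨c • p, C.BB.smul_mem hp c, ?_⟩
    show c • p.2.2 = C.β c • p.2.2
    rw [hβ, algebraMap_smul]

/-- the `StarData` of a `CoreHyp` -/
noncomputable def CoreHyp.starData (hnil : C.Nil) : StarData 𝒜 C.BB Rb where
  β := C.β
  Ψ := ((RingHom.snd _ _).comp (RingHom.snd _ _)).comp C.BB.val.toRingHom
  st := fun p => ⟨ambSt p.1, C.ambSt_mem hβ p.1 p.2⟩
  τ := fun p => Classical.choose (C.exists_tau hβ p.1 p.2)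
  Ψ_surj := by
    intro z
    obtain ⟨p, hp, rfl⟩ := C.exists_mem_BB hβ z
    exact ⟨⟨p, hp⟩, rfl⟩
  Ψ_smul := by
    intro c x
    show c • x.1.2.2 = C.β c • x.1.2.2
    rw [hβ, algebraMap_smul]
  st_mul := fun x y => Subtype.ext (ambSt_mul x.1 y.1)
  st_add := fun x y => Subtype.ext (ambSt_add x.1 y.1)
  st_smul := fun c x => Subtype.ext (ambSt_smul c x.1)
  st_st := fun x => Subtype.ext (ambSt_ambSt x.1)
  add_st := fun x => Subtype.ext (Classical.choose_spec (C.exists_tau hβ x.1 x.2))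
  Ψ_st := fun _ => rfl
  nil := by
    obtain ⟨n, hn⟩ := hnil
    refine ⟨n, fun c hc => ?_⟩
    apply Subtype.ext
    have h1 : algebraMap 𝒜 (Module.End 𝒜 X) c = 0 := by
      ext v
      exact hn c hc v
    refine Prod.ext h1 (Prod.ext ?_ ?_)
    · show MulOpposite.op (algebraMap 𝒜 (Module.End 𝒜 X) c) = 0
      rw [h1]; rfl
    · show algebraMap 𝒜 (Matrix (Fin 2) (Fin 2) Rb) c = 0
      rw [Algebra.algebraMap_eq_smul_one, ← algebraMap_smul Rb c, ← hβ, C.faith c (hn c hc),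
        zero_smul]
  two := C.two

theorem CoreHyp.exists_units_aux (hnil : C.Nil) :
    ∃ e b c : Module.End 𝒜 X, C.Units e b c := by
  obtain ⟨e, b, c, h1, h2, h3, h4, h5, h6, h7, hΨe, hΨb, hΨc, hsp⟩ :=
    (C.starData hβ hnil).exists_units
  have hfst : ∀ {x y : C.BB}, x = y → x.1.1 = y.1.1 := fun h => by rw [h]
  refine ⟨e.1.1, b.1.1, c.1.1, hfst h1, hfst h2, hfst h3, hfst h4, hfst h5, hfst h6, hfst h7, ?_⟩
  intro g
  obtain ⟨α₁, α₂, α₃, α₄, hα⟩ := hsp ⟨C.gam g, C.gam_mem g⟩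
  refine ⟨α₁, α₂, α₃, α₄, hfst hα, ?_⟩
  have h8 := congrArg (C.starData hβ hnil).Ψ hα
  have h9 : (C.starData hβ hnil).Ψ ⟨C.gam g, C.gam_mem g⟩ = C.rb g := rfl
  rw [h9, map_add, map_add, map_add, StarData.Ψ_smul, StarData.Ψ_smul, StarData.Ψ_smul,
    StarData.Ψ_smul, map_sub, map_one, hΨe, hΨb, hΨc] at h8
  rw [h8]
  have h10 : (C.starData hβ hnil).β = C.β := rfl
  rw [h10]
  ext i j
  fin_cases i <;> fin_cases j <;> simp

end main

/-- (BD) -/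
theorem CoreHyp.exists_units (C : CoreHyp Γ 𝒜 X Rb) (hnil : C.Nil) :
    ∃ e b c : Module.End 𝒜 X, C.Units e b c := by
  letI : Algebra 𝒜 Rb := C.β.toAlgebra
  exact C.exists_units_aux (fun _ => rfl) hnil

end Fermat.Agent.S32Lib
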