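import Fermat.Agent.S32.Defs
import Fermat.Agent.S22

set_option autoImplicit false
set_option linter.unusedSectionVars false
set_option linter.unusedVariables false

noncomputable section

namespace Fermat.Agent.S32Lib

open IsLocalRing CuspForm
open Fermat.Agent.S19Lib Fermat.Agent.S53Lib Fermat.Agent.S31Lib
open Fermat.Agent.ESLib (TT0 IsESData redM)

/-! ## (FB) Artin-Rees with coefficients -/

/-- an injective map into `ℤ ^ ι` has a retraction up to a non zero integer -/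
theorem FB_retract {H : Type} [AddCommGroup H] {ι : Type} [Finite ι] (φ : H →ₗ[ℤ] (ι → ℤ))
    (hφ : Function.Injective φ) :
    ∃ (D : ℤ) (ψ : (ι → ℤ) →ₗ[ℤ] H), D ≠ 0 ∧ ∀ t, ψ (φ t) = D • t := by
  classical
  let e : H ≃ₗ[ℤ] LinearMap.range φ := LinearEquiv.ofInjective φ hφ
  obtain ⟨n, snf⟩ := Submodule.smithNormalForm (Pi.basisFun ℤ ι) (LinearMap.range φ)
  have ha : ∀ i, snf.a i ≠ 0 := by
    intro i h0
    have h1 := snf.snf i
    rw [h0, zero_smul] at h1
    exact snf.bN.ne_zero i (Subtype.ext h1)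
  let w : ι → H := fun k =>
    if h : ∃ i, snf.f i = k then
      (∏ j ∈ Finset.univ.erase h.choose, snf.a j) • e.symm (snf.bN h.choose) else 0
  have hw : ∀ i, w (snf.f i) = (∏ j ∈ Finset.univ.erase i, snf.a j) • e.symm (snf.bN i) := by
    intro i
    have h : ∃ i', snf.f i' = snf.f i := ⟨i, rfl⟩
    have hc : h.choose = i := snf.f.injective h.choose_spec
    simp only [w]
    rw [dif_pos h, hc]
  refine ⟨∏ j, snf.a j, snf.bM.constr ℤ w, Finset.prod_ne_zero_iff.mpr (fun i _ => ha i), ?_⟩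
  have key : (snf.bM.constr ℤ w).comp φ = (∏ j, snf.a j) • LinearMap.id := by
    refine (snf.bN.map e.symm).ext (fun i => ?_)
    rw [Module.Basis.map_apply, LinearMap.comp_apply]
    have h1 : φ (e.symm (snf.bN i)) = ((snf.bN i : LinearMap.range φ) : ι → ℤ) := by
      have := e.apply_symm_apply (snf.bN i)
      exact congrArg Subtype.val this
    rw [h1, snf.snf i, map_smul, Module.Basis.constr_basis, hw i, smul_smul,
      Finset.mul_prod_erase Finset.univ snf.a (Finset.mem_univ i)]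
    rfl
  intro t
  exact LinearMap.congr_fun key t

theorem FB_cancel {T : Type} [CommRing T] {p : ℕ} (hpT : ∀ x : T, (p : T) * x = 0 → x = 0)
    (c : ℕ) (x : T) (h : (p : T) ^ c * x = 0) : x = 0 := by
  induction c with
  | zero => simpa using h
  | succ c ih =>
    apply ih
    apply hpT
    rw [← mul_assoc, ← pow_succ']
    exact h

theorem FB_abs {H : Type} [AddCommGroup H] {ι : Type} [Fintype ι] (φ : H →+ (ι → ℤ))
    (hφ : Function.Injective φ)
    {T : Type} [CommRing T] {p : ℕ} (hp : p.Prime) (hpT : ∀ x : T, (p : T) * x = 0 → x = 0)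
    (hu : ∀ u : ℤ, ¬ (p : ℤ) ∣ u → IsUnit (u : T)) (π : H →+ T) :
    ∃ c : ℕ, ∀ (m : ℕ) (x : H →₀ T),
      (∀ i, x.sum (fun t a => a * ((φ t i : ℤ) : T)) ∈ Ideal.span {((p : T)) ^ (m + c)}) →
      x.sum (fun t a => a * π t) ∈ Ideal.span {((p : T)) ^ m} := by
  classical
  obtain ⟨D, ψ, hD, hψ⟩ := FB_retract φ.toIntLinearMap hφ
  have hfin : FiniteMultiplicity (p : ℤ) D :=
    Int.finiteMultiplicity_iff.2 ⟨by simpa using hp.ne_one, hD⟩
  obtain ⟨u, hDu, hpu⟩ := hfin.exists_eq_pow_mul_and_not_dvd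
  refine ⟨multiplicity (p : ℤ) D, fun m x hx => ?_⟩
  set c := multiplicity (p : ℤ) D with hc
  -- the basic identity
  have h1 : ∀ t : H, (D : T) * π t =
      ∑ i, ((φ t i : ℤ) : T) * π (ψ (fun j => if i = j then 1 else 0)) := by
    intro t
    have h2 : D • t = ∑ i, (φ t i) • ψ (fun j => if i = j then 1 else 0) := by
      rw [← hψ t]
      exact ψ.pi_apply_eq_sum_univ (φ t)
    have h3 := congrArg π h2
    rw [map_zsmul, map_sum, zsmul_eq_mul] at h3
    rw [h3]
    refine Finset.sum_congr rfl (fun i _ => ?_)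
    rw [map_zsmul, zsmul_eq_mul]
  have h4 : (D : T) * x.sum (fun t a => a * π t) =
      ∑ i, x.sum (fun t a => a * ((φ t i : ℤ) : T)) * π (ψ (fun j => if i = j then 1 else 0)) := by
    simp only [Finsupp.sum, Finset.mul_sum, Finset.sum_mul]
    rw [Finset.sum_comm]
    refine Finset.sum_congr rfl (fun t _ => ?_)
    rw [mul_left_comm, h1 t, Finset.mul_sum]
    refine Finset.sum_congr rfl (fun i _ => ?_)
    ring
  have h5 : (D : T) * x.sum (fun t a => a * π t) ∈ Ideal.span {((p : T)) ^ (m + c)} := by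
    rw [h4]
    exact Ideal.sum_mem _ (fun i _ => Ideal.mul_mem_right _ _ (hx i))
  obtain ⟨y, hy⟩ := Ideal.mem_span_singleton.mp h5
  obtain ⟨v, hv⟩ := hu u hpu
  have hDT : (D : T) = (p : T) ^ c * (v : T) := by
    rw [hv]
    conv_lhs => rw [hDu]
    push_cast
    rfl
  have h6 : (v : T) * x.sum (fun t a => a * π t) - (p : T) ^ m * y = 0 := by
    apply FB_cancel hpT c
    rw [mul_sub, ← mul_assoc, ← hDT, hy, pow_add]
    ring
  refine Ideal.mem_span_singleton.mpr ⟨((v⁻¹ : Tˣ) : T) * y, ?_⟩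
  have h7 : (v : T) * x.sum (fun t a => a * π t) = (p : T) ^ m * y := sub_eq_zero.mp h6
  calc x.sum (fun t a => a * π t)
      = ((v⁻¹ : Tˣ) : T) * ((v : T) * x.sum (fun t a => a * π t)) := by
        rw [← mul_assoc, Units.inv_mul, one_mul]
    _ = (p : T) ^ m * (((v⁻¹ : Tˣ) : T) * y) := by rw [h7]; ring

theorem faith_bound {N : ℕ} [NeZero N] {S : Finset ℕ} (hNS : ∀ q : ℕ, q.Prime → q ∣ N → q ∈ S)
    {r : ℕ} {Θ : TT0 N →+* Matrix (Fin r) (Fin r) ℤ} (hinj : Function.Injective Θ)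
    {T : Type} [CommRing T] {p : ℕ} (hp : p.Prime) (hpT : ∀ x : T, (p : T) * x = 0 → x = 0)
    (hu : ∀ u : ℤ, ¬ (p : ℤ) ∣ u → IsUnit (u : T))
    (π : heckeAlgebra N 2 (↑S : Set ℕ) →+* T) :
    ∃ c : ℕ, ∀ (m : ℕ) (x : heckeAlgebra N 2 (↑S : Set ℕ) →₀ T),
      (∀ i j, x.sum (fun t a => a * ((Θ (incT hNS t) i j : ℤ) : T)) ∈
        Ideal.span {((p : T)) ^ (m + c)}) →
      x.sum (fun t a => a * π t) ∈ Ideal.span {((p : T)) ^ m} := by
  let φ : heckeAlgebra N 2 (↑S : Set ℕ) →+ (Fin r × Fin r → ℤ) :=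
    { toFun := fun t ij => Θ (incT hNS t) ij.1 ij.2
      map_zero' := by funext ij; simp
      map_add' := by intro s t; funext ij; simp }
  have hφ : Function.Injective φ := by
    intro s t hst
    apply incT_injective hNS
    apply hinj
    ext i j
    exact congrFun hst (i, j)
  obtain ⟨c, hc⟩ := FB_abs φ hφ hp hpT hu π.toAddMonoidHom
  exact ⟨c, fun m x hx => hc m x (fun ij => hx ij.1 ij.2)⟩

end Fermat.Agent.S32Lib
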