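import Fermat.Agent.S32.Defs

set_option autoImplicit false
set_option linter.unusedSectionVars false
set_option linter.unusedVariables false

noncomputable section

namespace Fermat.Agent.S32Lib

open IsLocalRing CuspForm
open Fermat.Agent.S19Lib Fermat.Agent.S53Lib Fermat.Agent.S31Lib
open Fermat.Agent.ESLib (TT0 IsESData redM)


variable {N : ℕ} [NeZero N] {S : Finset ℕ} {p : ℕ}
  {𝒪 : Type} [CommRing 𝒪] [IsDomain 𝒪] [IsDiscreteValuationRing 𝒪]
  [IsAdicComplete (IsLocalRing.maximalIdeal 𝒪) 𝒪]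
  {θ : CuspForm.heckeAlgebra N 2 (↑S : Set ℕ) →+* IsLocalRing.ResidueField 𝒪}
  {T : Type} [CommRing T] [IsLocalRing T] [IsNoetherianRing T]
  [IsAdicComplete (IsLocalRing.maximalIdeal T) T] [Algebra 𝒪 T] [IsLocalHom (algebraMap 𝒪 T)]
  [Module.Finite 𝒪 T] [Module.Free 𝒪 T]

/-! ## (FT) elementary facts on `T` -/

theorem finite_residueField_T [Finite (ResidueField 𝒪)]
    (hsurj : Function.Surjective (residue T ∘ algebraMap 𝒪 T)) : Finite (ResidueField T) := by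
  refine Finite.of_surjective (IsLocalRing.ResidueField.map (algebraMap 𝒪 T)) ?_
  intro y
  obtain ⟨x, hx⟩ := hsurj y
  exact ⟨residue 𝒪 x, by rw [IsLocalRing.ResidueField.map_residue]; exact hx⟩

theorem natCast_mem_maximalIdeal_T (hp𝒪 : (p : 𝒪) ∈ maximalIdeal 𝒪) : (p : T) ∈ maximalIdeal T := by
  rw [mem_maximalIdeal, mem_nonunits_iff] at hp𝒪 ⊢
  intro h
  apply hp𝒪
  have h2 : IsUnit (algebraMap 𝒪 T (p : 𝒪)) := by rwa [map_natCast]
  exact isUnit_of_map_unit (algebraMap 𝒪 T) _ h2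

theorem FT_finite_quot [Finite (ResidueField 𝒪)] [CharZero 𝒪] (hp : p.Prime) (m : ℕ) :
    Finite (𝒪 ⧸ Ideal.span {((p : 𝒪)) ^ m}) := by
  rw [IsLocalRing.finite_quotient_iff]
  obtain ⟨ϖ, hϖ⟩ := IsDiscreteValuationRing.exists_irreducible 𝒪
  have hne : ((p : 𝒪)) ^ m ≠ 0 := pow_ne_zero _ (Nat.cast_ne_zero.mpr hp.ne_zero)
  obtain ⟨n, u, hu⟩ := IsDiscreteValuationRing.eq_unit_mul_pow_irreducible hne hϖ
  refine ⟨n, ?_⟩
  rw [hϖ.maximalIdeal_eq, Ideal.span_singleton_pow, Ideal.span_singleton_le_span_singleton, hu]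
  exact ⟨((u⁻¹ : 𝒪ˣ) : 𝒪), by rw [mul_comm, ← mul_assoc, Units.inv_mul, one_mul]⟩

theorem finite_Tm [Finite (ResidueField 𝒪)] [CharZero 𝒪] (hp : p.Prime)
    (hp𝒪 : (p : 𝒪) ∈ maximalIdeal 𝒪) (m : ℕ) : Finite (Tm T p m) := by
  haveI := FT_finite_quot (𝒪 := 𝒪) hp m
  obtain ⟨n, f, hf⟩ := Module.Finite.exists_fin' 𝒪 T
  refine Finite.of_surjective
    (fun v : Fin n → 𝒪 ⧸ Ideal.span {((p : 𝒪)) ^ m} =>
      (Ideal.Quotient.mk (Ideal.span {((p : T)) ^ m}) (f (fun i => (v i).out)) : Tm T p m)) ?_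
  intro y
  obtain ⟨t, rfl⟩ := Ideal.Quotient.mk_surjective y
  obtain ⟨w, rfl⟩ := hf t
  refine ⟨fun i => Ideal.Quotient.mk _ (w i), ?_⟩
  have h1 : ∀ i, ∃ c : 𝒪, (Ideal.Quotient.mk (Ideal.span {((p : 𝒪)) ^ m}) (w i)).out - w i =
      (p : 𝒪) ^ m * c := by
    intro i
    have : (Ideal.Quotient.mk (Ideal.span {((p : 𝒪)) ^ m}) (w i)).out - w i ∈
        Ideal.span {((p : 𝒪)) ^ m} := by
      rw [← Ideal.Quotient.eq]
      exact Quotient.out_eq' _
    exact Ideal.mem_span_singleton.mp this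
  choose c hc using h1
  show Ideal.Quotient.mk _ _ = Ideal.Quotient.mk _ _
  rw [Ideal.Quotient.eq, ← map_sub]
  have h2 : ((fun i => (Ideal.Quotient.mk (Ideal.span {((p : 𝒪)) ^ m}) (w i)).out) - w) =
      ((p : 𝒪) ^ m) • c := by
    funext i
    simp only [Pi.sub_apply, Pi.smul_apply, smul_eq_mul]
    exact hc i
  rw [h2, map_smul, Algebra.smul_def, map_pow, map_natCast]
  exact Ideal.mul_mem_right _ _ (Ideal.mem_span_singleton_self _)

theorem exists_maximalIdeal_pow_le (I : Ideal T) (hI : Finite (T ⧸ I)) :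
    ∃ n : ℕ, maximalIdeal T ^ n ≤ I :=
  IsLocalRing.exists_maximalIdeal_pow_le_of_isArtinianRing_quotient I

theorem eq_zero_of_natCast_mul_eq_zero (𝒪 : Type) [CommRing 𝒪] [IsDomain 𝒪] [CharZero 𝒪]
    {T : Type} [CommRing T] [Algebra 𝒪 T] [Module.Free 𝒪 T] (hp : p.Prime) (x : T)
    (h : (p : T) * x = 0) : x = 0 := by
  have h2 : (p : 𝒪) • x = 0 := by
    rw [Algebra.smul_def, map_natCast]; exact h
  rcases smul_eq_zero.mp h2 with h3 | h3
  · exact absurd h3 (Nat.cast_ne_zero.mpr hp.ne_zero)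
  · exact h3

theorem isUnit_intCast_T (hp : p.Prime) (hpT : (p : T) ∈ maximalIdeal T) (u : ℤ)
    (hu : ¬ (p : ℤ) ∣ u) : IsUnit (u : T) := by
  have hcop : IsCoprime u (p : ℤ) :=
    ((Nat.prime_iff_prime_int.mp hp).coprime_iff_not_dvd.mpr hu).symm
  obtain ⟨a, b, hab⟩ := hcop
  have h1 : (a : T) * (u : T) = 1 - (b : T) * (p : T) := by
    have := congrArg (Int.cast : ℤ → T) hab
    push_cast at this
    rw [← this]; ring
  have h2 : IsUnit ((a : T) * (u : T)) := by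
    rw [h1]
    by_contra hcon
    have h3 : (1 - (b : T) * (p : T)) ∈ maximalIdeal T := (mem_maximalIdeal _).mpr hcon
    have h4 : (1 : T) ∈ maximalIdeal T := by
      have := (maximalIdeal T).add_mem h3 (Ideal.mul_mem_left _ (b : T) hpT)
      simpa using this
    exact (Ideal.ne_top_iff_one _).mp (maximalIdeal.isMaximal T).ne_top h4
  exact isUnit_of_mul_isUnit_right h2

end Fermat.Agent.S32Lib
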