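import Fermat.Agent.S32.CoreDefs

/-!
# S32 (IN), abstract part: the monoid algebra `R[𝕋]` acting on `R ^ r`
-/

set_option autoImplicit false
set_option linter.unusedSectionVars false
set_option linter.unusedVariables false

noncomputable section

namespace Fermat.Agent.S32Lib

variable {Γ R Rb 𝕋 : Type} [Group Γ] [CommRing R] [CommRing Rb] [CommMonoid 𝕋] {r : ℕ}

/-- the action of the monoid algebra by matrices -/
def IN_alpha (μ : 𝕋 →* Matrix (Fin r) (Fin r) R) :
    MonoidAlgebra R 𝕋 →+* Matrix (Fin r) (Fin r) R :=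
  MonoidAlgebra.liftNCRingHom (Matrix.scalar (Fin r)) μ
    (fun x y => Matrix.scalar_commute x (fun _ => Commute.all _ _) (μ y))

theorem IN_alpha_single (μ : 𝕋 →* Matrix (Fin r) (Fin r) R) (t : 𝕋) (c : R) :
    IN_alpha μ (MonoidAlgebra.single t c) = c • μ t := by
  rw [IN_alpha, MonoidAlgebra.liftNCRingHom_single, Matrix.scalar_apply,
    ← Matrix.smul_eq_diagonal_mul]

theorem IN_alpha_apply (μ : 𝕋 →* Matrix (Fin r) (Fin r) R) (x : MonoidAlgebra R 𝕋) :
    IN_alpha μ x = x.coeff.sum (fun t c => c • μ t) := by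
  conv_lhs => rw [← MonoidAlgebra.sum_coeff_single x]
  rw [map_finsuppSum]
  simp only [IN_alpha_single]

/-- the map to `Rb` -/
def IN_beta (f : R →+* Rb) (π' : 𝕋 →* Rb) : MonoidAlgebra R 𝕋 →+* Rb :=
  MonoidAlgebra.liftNCRingHom f π' (fun _ _ => Commute.all _ _)

theorem IN_beta_single (f : R →+* Rb) (π' : 𝕋 →* Rb) (t : 𝕋) (c : R) :
    IN_beta f π' (MonoidAlgebra.single t c) = f c * π' t := by
  rw [IN_beta, MonoidAlgebra.liftNCRingHom_single]

theorem IN_beta_apply (f : R →+* Rb) (π' : 𝕋 →* Rb) (x : MonoidAlgebra R 𝕋) :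
    IN_beta f π' x = x.coeff.sum (fun t c => f c * π' t) := by
  conv_lhs => rw [← MonoidAlgebra.sum_coeff_single x]
  rw [map_finsuppSum]
  simp only [IN_beta_single]

/-- the module structure -/
@[reducible] def IN_module (μ : 𝕋 →* Matrix (Fin r) (Fin r) R) :
    Module (MonoidAlgebra R 𝕋) (Fin r → R) :=
  Module.compHom (Fin r → R)
    ((Matrix.toLinAlgEquiv' (R := R) (n := Fin r)).toRingEquiv.toRingHom.comp (IN_alpha μ))

theorem IN_smul (μ : 𝕋 →* Matrix (Fin r) (Fin r) R) (x : MonoidAlgebra R 𝕋) (v : Fin r → R) :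
    (letI := IN_module μ; x • v) = (IN_alpha μ x).mulVec v := rfl

theorem IN_comm (μ : 𝕋 →* Matrix (Fin r) (Fin r) R) (M : Matrix (Fin r) (Fin r) R)
    (h : ∀ t, M * μ t = μ t * M) (x : MonoidAlgebra R 𝕋) :
    M * IN_alpha μ x = IN_alpha μ x * M := by
  rw [IN_alpha_apply, Finsupp.sum, Finset.mul_sum, Finset.sum_mul]
  refine Finset.sum_congr rfl (fun t _ => ?_)
  rw [Matrix.mul_smul, Matrix.smul_mul, h]

theorem IN_abs (μ : 𝕋 →* Matrix (Fin r) (Fin r) R) (A : Γ →* Matrix (Fin r) (Fin r) R)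
    (hcomm : ∀ g t, A g * μ t = μ t * A g)
    (f : R →+* Rb) (hf : Function.Surjective f) (π' : 𝕋 →* Rb)
    (rb : Γ →* Matrix (Fin 2) (Fin 2) Rb) (hspan : Submodule.span Rb (Set.range rb) = ⊤)
    (d0 : Γ →* Rˣ) (t0 : Γ → 𝕋)
    (hch : ∀ g, A g + ((d0 g : Rˣ) : R) • A g⁻¹ = μ (t0 g))
    (htr : ∀ g, π' (t0 g) = (rb g).trace)
    (hdet : ∀ g, f ((d0 g : Rˣ) : R) = (rb g).det)
    (hfaith : ∀ x : 𝕋 →₀ R, x.sum (fun t c => c • μ t) = 0 → x.sum (fun t c => f c * π' t) = 0)
    (htwo : IsUnit (2 : R)) :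
    ∃ (𝒜 : Type) (_ : CommRing 𝒜) (_ : Module 𝒜 (Fin r → R))
      (C : CoreHyp Γ 𝒜 (Fin r → R) Rb),
      (∀ g v, C.a g v = (A g).mulVec v) ∧ (∀ g, C.rb g = rb g) := by
  letI := IN_module μ
  let a0 : Γ → Module.End (MonoidAlgebra R 𝕋) (Fin r → R) := fun g =>
    { toFun := fun v => (A g).mulVec v
      map_add' := fun v w => Matrix.mulVec_add _ _ _
      map_smul' := by
        intro x v
        show (A g).mulVec ((IN_alpha μ x).mulVec v) = (IN_alpha μ x).mulVec ((A g).mulVec v)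
        rw [Matrix.mulVec_mulVec, Matrix.mulVec_mulVec, IN_comm μ (A g) (hcomm g) x] }
  have ha0 : ∀ g v, a0 g v = (A g).mulVec v := fun _ _ => rfl
  let a : Γ →* Module.End (MonoidAlgebra R 𝕋) (Fin r → R) :=
    { toFun := a0
      map_one' := by
        refine LinearMap.ext (fun v => ?_)
        rw [ha0, map_one, Matrix.one_mulVec]
        rfl
      map_mul' := by
        intro g h
        refine LinearMap.ext (fun v => ?_)
        rw [ha0, map_mul, ← Matrix.mulVec_mulVec]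
        rfl }
  have ha : ∀ g v, a g v = (A g).mulVec v := fun _ _ => rfl
  let d : Γ →* (MonoidAlgebra R 𝕋)ˣ :=
    (Units.map (MonoidAlgebra.singleOneRingHom (R := R) (M := 𝕋)).toMonoidHom).comp d0
  have hd : ∀ g, ((d g : (MonoidAlgebra R 𝕋)ˣ) : MonoidAlgebra R 𝕋) =
      MonoidAlgebra.single 1 ((d0 g : Rˣ) : R) := fun _ => rfl
  refine ⟨MonoidAlgebra R 𝕋, inferInstance, IN_module μ,
    { a := a
      β := IN_beta f π'
      rb := rb
      d := d
      t := fun g => MonoidAlgebra.single (t0 g) 1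
      β_surj := ?_
      ch := ?_
      tr := ?_
      det := ?_
      span := hspan
      faith := ?_
      two := ?_ }, fun g v => rfl, fun g => rfl⟩
  · intro y
    obtain ⟨c, rfl⟩ := hf y
    exact ⟨MonoidAlgebra.single 1 c, by rw [IN_beta_single, map_one, mul_one]⟩
  · intro g
    refine LinearMap.ext (fun v => ?_)
    show (A g).mulVec v + (IN_alpha μ (d g : MonoidAlgebra R 𝕋)).mulVec ((A g⁻¹).mulVec v) =
      (IN_alpha μ (MonoidAlgebra.single (t0 g) 1)).mulVec v
    rw [hd, IN_alpha_single, IN_alpha_single, map_one, one_smul, ← hch g, Matrix.add_mulVec,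
      Matrix.mulVec_mulVec, Matrix.smul_mul, Matrix.one_mul]
  · intro g
    show IN_beta f π' (MonoidAlgebra.single (t0 g) 1) = _
    rw [IN_beta_single, map_one, one_mul, htr]
  · intro g
    rw [hd, IN_beta_single, map_one, mul_one, hdet]
  · intro x hx
    rw [IN_beta_apply]
    apply hfaith
    rw [← IN_alpha_apply]
    have h1 : ∀ v, (IN_alpha μ x).mulVec v = 0 := hx
    ext i j
    have h2 := congrFun (h1 (Pi.single j 1)) i
    rw [Matrix.mulVec_single_one] at h2
    exact h2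
  · have h1 : (2 : MonoidAlgebra R 𝕋) = MonoidAlgebra.singleOneRingHom (R := R) (M := 𝕋) 2 := by
      rw [map_ofNat]
    rw [h1]
    exact htwo.map _

end Fermat.Agent.S32Lib
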