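import Fermat.Agent.S32.InstPre
import Fermat.Agent.S32.Faith
import Fermat.Agent.S32.FinT
import Fermat.Agent.S32.InstAbs

set_option autoImplicit false
set_option linter.unusedSectionVars false
set_option linter.unusedVariables false

noncomputable section

namespace Fermat.Agent.S32Lib

open IsLocalRing CuspForm
open Fermat.Agent.S19Lib Fermat.Agent.S53Lib Fermat.Agent.S31Lib
open Fermat.Agent.ESLib (TT0 IsESData redM)


variable {N : ℕ} [NeZero N] {S : Finset ℕ} {p : ℕ}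
  {𝒪 : Type} [CommRing 𝒪] [IsDomain 𝒪] [IsDiscreteValuationRing 𝒪]
  [IsAdicComplete (IsLocalRing.maximalIdeal 𝒪) 𝒪]
  {θ : CuspForm.heckeAlgebra N 2 (↑S : Set ℕ) →+* IsLocalRing.ResidueField 𝒪}
  {T : Type} [CommRing T] [IsLocalRing T] [IsNoetherianRing T]
  [IsAdicComplete (IsLocalRing.maximalIdeal T) T] [Algebra 𝒪 T] [IsLocalHom (algebraMap 𝒪 T)]
  [Module.Finite 𝒪 T] [Module.Free 𝒪 T]

/-! ## (IN) the instance of the core hypotheses -/

/-- the Hecke operators as matrices over `T / p ^ m` -/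
def IN_mu (T : Type) [CommRing T] (p m : ℕ) (hNS : ∀ q : ℕ, q.Prime → q ∣ N → q ∈ S) {r : ℕ}
    (Θ : TT0 N →+* Matrix (Fin r) (Fin r) ℤ) :
    heckeAlgebra N 2 (↑S : Set ℕ) →* Matrix (Fin r) (Fin r) (Tm T p m) :=
  ((Int.castRingHom (Tm T p m)).mapMatrix.comp (Θ.comp (incT hNS))).toMonoidHom

theorem IN_mu_apply (T : Type) [CommRing T] (p m : ℕ)
    (hNS : ∀ q : ℕ, q.Prime → q ∣ N → q ∈ S) {r : ℕ}
    (Θ : TT0 N →+* Matrix (Fin r) (Fin r) ℤ) (t : heckeAlgebra N 2 (↑S : Set ℕ)) (i j : Fin r) :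
    IN_mu T p m hNS Θ t i j = ((Θ (incT hNS t) i j : ℤ) : Tm T p m) := rfl

theorem IN_mu_eq (T : Type) [CommRing T] (p m : ℕ)
    (hNS : ∀ q : ℕ, q.Prime → q ∣ N → q ∈ S) {r : ℕ}
    (Θ : TT0 N →+* Matrix (Fin r) (Fin r) ℤ) (t : heckeAlgebra N 2 (↑S : Set ℕ)) :
    IN_mu T p m hNS Θ t = (zTm T p m).mapMatrix (redM p m (Θ (incT hNS t))) := by
  ext i j
  rw [IN_mu_apply]
  show _ = zTm T p m ((Int.castRingHom (ZMod (p ^ m))) (Θ (incT hNS t) i j))
  rw [eq_intCast, map_intCast]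

theorem exists_coreHyp [Finite (ResidueField 𝒪)] [CharZero 𝒪] (hp : p.Prime) (hp2 : p ≠ 2)
    (hp𝒪 : (p : 𝒪) ∈ maximalIdeal 𝒪) (hpS : p ∈ S)
    (hNS : ∀ q : ℕ, q.Prime → q ∣ N → q ∈ S) {r : ℕ}
    {Θ : TT0 N →+* Matrix (Fin r) (Fin r) ℤ}
    {ρ : (n : ℕ) → GQ →* Matrix (Fin r) (Fin r) (ZMod (p ^ n))} (hES : IsESData N p r Θ ρ)
    (H : CuspForm.HeckeGaloisRepDatum N (↑S : Set ℕ) 𝒪 θ T)
    (r' : GQ →* M2 T) (hc : MatCont r') (he : H.ρ.IsEquiv (ofMat r' hc))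
    (I : Ideal T) (hI : Finite (T ⧸ I)) :
    ∃ (m : ℕ) (𝒜 : Type) (_ : CommRing 𝒜) (_ : Module 𝒜 (Fin r → Tm T p m))
      (C : CoreHyp GQ 𝒜 (Fin r → Tm T p m) (T ⧸ I)),
      (∀ g v, C.a g v = (aX T m (ρ m) g).mulVec v) ∧
      (∀ g, C.rb g = mapMat (Ideal.Quotient.mk I) r' g) := by
  classical
  have hpT : (p : T) ∈ maximalIdeal T := natCast_mem_maximalIdeal_T hp𝒪
  have hnzd : ∀ x : T, (p : T) * x = 0 → x = 0 := eq_zero_of_natCast_mul_eq_zero 𝒪 hp
  have hunit : ∀ u : ℤ, ¬ (p : ℤ) ∣ u → IsUnit (u : T) := isUnit_intCast_T hp hpT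
  obtain ⟨n, hn⟩ := exists_maximalIdeal_pow_le I hI
  obtain ⟨c, hcb⟩ := faith_bound hNS hES.inj hp hnzd hunit H.π
  obtain ⟨m, hm⟩ : ∃ m, m = n + 1 + c := ⟨_, rfl⟩
  have hm0 : 0 < m := by omega
  have hnm : n ≤ m := by omega
  have hpow : ∀ k, n ≤ k → (p : T) ^ k ∈ I := fun k hk =>
    hn (Ideal.pow_le_pow_right hk (Ideal.pow_mem_pow hpT k))
  have hle : Ideal.span {((p : T)) ^ m} ≤ I := by
    rw [Ideal.span_singleton_le_iff_mem]
    exact hpow m hnm
  obtain ⟨ω, hω₁, hω₂, -⟩ := Fermat.Agent.S33Lib.exists_cyclo_pow2 p hp m hm0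
  have happ := Fermat.Agent.S33Lib.exists_hecke_approx hp hp𝒪 hpS hNS hES H r' hc
    (frobChar_of_isEquiv H r' hc he) m n hnm ω hω₁ hω₂
  choose t0 e0 h1 h2 h3 h4 using happ
  let f : Tm T p m →+* T ⧸ I := Ideal.Quotient.factor hle
  have hfmk : ∀ x : T, f (Ideal.Quotient.mk _ x) = Ideal.Quotient.mk I x := fun x => rfl
  let d0 : GQ →* (Tm T p m)ˣ := (Units.map (zTm T p m).toMonoidHom).comp ω
  have hd0 : ∀ g, ((d0 g : (Tm T p m)ˣ) : Tm T p m) = (e0 g : Tm T p m) := by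
    intro g
    show zTm T p m ((ω g : (ZMod (p ^ m))ˣ) : ZMod (p ^ m)) = _
    rw [← h2 g, map_natCast]
  refine ⟨m, IN_abs (IN_mu T p m hNS Θ) (aX T m (ρ m)) ?_ f
    (Ideal.Quotient.factor_surjective hle)
    ((Ideal.Quotient.mk I).comp H.π).toMonoidHom (mapMat (Ideal.Quotient.mk I) r')
    (span_quot_eq_top H r' hc he I) d0 t0 ?_ ?_ ?_ ?_ ?_⟩
  · -- commutation
    intro g t
    rw [IN_mu_eq]
    show (zTm T p m).mapMatrix (ρ m g) * _ = _ * (zTm T p m).mapMatrix (ρ m g)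
    rw [← map_mul, ← map_mul, hES.comm m g (incT hNS t)]
  · -- Cayley-Hamilton
    intro g
    rw [IN_mu_eq, hd0]
    have h5 : redM p m (Θ (incT hNS (t0 g))) =
        ρ m g + (e0 g : Matrix (Fin r) (Fin r) (ZMod (p ^ m))) * ρ m g⁻¹ := h1 g
    rw [h5, map_add, map_mul, map_natCast, Nat.cast_smul_eq_nsmul, nsmul_eq_mul]
    rfl
  · -- trace
    intro g
    show Ideal.Quotient.mk I (H.π (t0 g)) = _
    have h5 : Ideal.Quotient.mk I (H.π (t0 g)) = Ideal.Quotient.mk I (r' g).trace :=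
      (Ideal.Quotient.eq).mpr (hn (h3 g))
    rw [h5, Matrix.trace_fin_two, Matrix.trace_fin_two, map_add]
    rfl
  · -- determinant
    intro g
    rw [hd0, map_natCast]
    have h5 : Ideal.Quotient.mk I (e0 g : T) = Ideal.Quotient.mk I (r' g).det :=
      (Ideal.Quotient.eq).mpr (hn (h4 g))
    rw [map_natCast] at h5
    rw [h5, RingHom.map_det]
    rfl
  · -- faithfulness
    intro x hx
    obtain ⟨y, rfl⟩ := Finsupp.mapRange_surjective
      (Ideal.Quotient.mk (Ideal.span {((p : T)) ^ m})) (map_zero _)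
      Ideal.Quotient.mk_surjective x
    rw [Finsupp.sum_mapRange_index (by intro t; rw [zero_smul])] at hx
    rw [Finsupp.sum_mapRange_index (by intro t; rw [map_zero, zero_mul])]
    have h5 : ∀ i j, y.sum (fun t a => a * ((Θ (incT hNS t) i j : ℤ) : T)) ∈
        Ideal.span {((p : T)) ^ (n + 1 + c)} := by
      intro i j
      rw [← hm, ← Ideal.Quotient.eq_zero_iff_mem, map_finsuppSum]
      have h6 := congrFun (congrFun hx i) j
      rw [Finsupp.sum, Matrix.sum_apply] at h6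
      rw [Finsupp.sum]
      rw [Matrix.zero_apply] at h6
      rw [← h6]
      refine Finset.sum_congr rfl (fun t _ => ?_)
      rw [Matrix.smul_apply, IN_mu_apply, smul_eq_mul, map_mul, map_intCast]
    have h7 := hcb (n + 1) y h5
    have h8 : y.sum (fun t a => a * H.π t) ∈ I := by
      have : Ideal.span {((p : T)) ^ (n + 1)} ≤ I := by
        rw [Ideal.span_singleton_le_iff_mem]
        exact hpow (n + 1) (by omega)
      exact this h7
    rw [← Ideal.Quotient.eq_zero_iff_mem, map_finsuppSum] at h8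
    rw [← h8]
    refine Finsupp.sum_congr (fun t _ => ?_)
    rw [hfmk, map_mul]
    rfl
  · -- two
    have h5 : IsUnit ((2 : ℤ) : T) := by
      apply hunit
      intro h
      have h6 : p ∣ 2 := by exact_mod_cast h
      exact hp2 ((Nat.prime_dvd_prime_iff_eq hp Nat.prime_two).mp h6)
    have h6 := h5.map (Ideal.Quotient.mk (Ideal.span {((p : T)) ^ m}))
    rw [map_intCast] at h6
    have h7 : (((2 : ℤ) : T ⧸ Ideal.span {((p : T)) ^ m})) = (2 : Tm T p m) := by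
      norm_num
    rw [h7] at h6
    exact h6

end Fermat.Agent.S32Lib
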