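import Fermat.Agent.S32.Defs

set_option autoImplicit false
set_option linter.unusedSectionVars false
set_option linter.unusedVariables false

noncomputable section

namespace Fermat.Agent.S32Lib

open IsLocalRing CuspForm
open Fermat.Agent.S19Lib Fermat.Agent.S53Lib Fermat.Agent.S31Lib
open Fermat.Agent.ESLib (TT0 IsESData redM)


variable {N : ℕ} [NeZero N] {S : Finset ℕ} {p : ℕ}
  {𝒪 : Type} [CommRing 𝒪] [IsDomain 𝒪] [IsDiscreteValuationRing 𝒪]
  [IsAdicComplete (IsLocalRing.maximalIdeal 𝒪) 𝒪]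
  {θ : CuspForm.heckeAlgebra N 2 (↑S : Set ℕ) →+* IsLocalRing.ResidueField 𝒪}
  {T : Type} [CommRing T] [IsLocalRing T] [IsNoetherianRing T]
  [IsAdicComplete (IsLocalRing.maximalIdeal T) T] [Algebra 𝒪 T] [IsLocalHom (algebraMap 𝒪 T)]
  [Module.Finite 𝒪 T] [Module.Free 𝒪 T]

/-! ## (IP) matrix form of the datum -/

theorem frobChar_of_isEquiv (H : CuspForm.HeckeGaloisRepDatum N (↑S : Set ℕ) 𝒪 θ T)
    (r' : GQ →* M2 T) (hc : MatCont r') (he : H.ρ.IsEquiv (ofMat r' hc)) :
    Fermat.Agent.S33Lib.FrobChar H r' := by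
  obtain ⟨e⟩ := he
  intro ℓ hℓ hℓN hℓS A hA τ hτ
  have hconj : e.toLinearEquiv.conj (H.ρ.ρ τ) = (ofMat r' hc).ρ τ := by
    refine LinearMap.ext fun x => ?_
    rw [LinearEquiv.conj_apply_apply, e.map_apply τ (e.toLinearEquiv.symm x),
      LinearEquiv.apply_symm_apply]
  rw [← H.charpoly_frob ℓ hℓ hℓN hℓS A hA τ hτ,
    ← LinearEquiv.charpoly_conj e.toLinearEquiv (H.ρ.ρ τ), hconj]
  exact (Matrix.charpoly_toLin' (r' τ)).symm

theorem IP_span_map {A B : Type} [CommRing A] [CommRing B] (φ : A →+* B)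
    (hφ : Function.Surjective φ) (r : GQ →* M2 A)
    (h : Submodule.span A (Set.range r) = ⊤) :
    Submodule.span B (Set.range (mapMat φ r)) = ⊤ := by
  have hpush : ∀ Y ∈ Submodule.span A (Set.range r),
      Y.map φ ∈ Submodule.span B (Set.range (mapMat φ r)) := by
    intro Y hY
    induction hY using Submodule.span_induction with
    | mem Y hY =>
      obtain ⟨g, rfl⟩ := hY
      exact Submodule.subset_span ⟨g, rfl⟩
    | zero =>
      have : (0 : M2 A).map φ = 0 := by ext i j; simp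
      rw [this]; exact Submodule.zero_mem _
    | add Y Z _ _ hY hZ =>
      have : (Y + Z).map φ = Y.map φ + Z.map φ := by ext i j; simp
      rw [this]; exact Submodule.add_mem _ hY hZ
    | smul a Y _ hY =>
      have : (a • Y).map φ = φ a • Y.map φ := by ext i j; simp
      rw [this]; exact Submodule.smul_mem _ _ hY
  rw [eq_top_iff]
  intro Z _
  have hZ : ∃ Y : M2 A, Y.map φ = Z := by
    choose f hf using hφ
    exact ⟨Matrix.of (fun i j => f (Z i j)), by ext i j; simp [hf]⟩
  obtain ⟨Y, rfl⟩ := hZ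
  exact hpush Y (by rw [h]; trivial)

theorem span_quot_eq_top (H : CuspForm.HeckeGaloisRepDatum N (↑S : Set ℕ) 𝒪 θ T)
    (r' : GQ →* M2 T) (hc : MatCont r') (he : H.ρ.IsEquiv (ofMat r' hc)) (I : Ideal T) :
    Submodule.span (T ⧸ I) (Set.range (mapMat (Ideal.Quotient.mk I) r')) = ⊤ := by
  have hirr : IrrMat (mapMat (algebraMap (ResidueField T) (AlgebraicClosure (ResidueField T)))
      (mapMat (residue T) r')) :=
    irrMat_of_absIrr H.ρ.residual H.residual_absIrr (mapMat (residue T) r') hc.factors_residue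
      (resEquiv_trans (isEquiv_residual he) (ofMat_residual r' hc _))
  exact IP_span_map _ Ideal.Quotient.mk_surjective r'
    (span_range_eq_top_of_residue r' (span_range_eq_top _ hirr))

end Fermat.Agent.S32Lib
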