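import Fermat.Agent.S32.CoreDefs

set_option autoImplicit false

namespace Fermat.Agent.S32Lib

variable {𝒜 𝔹 Rb : Type} [CommRing 𝒜] [Ring 𝔹] [Algebra 𝒜 𝔹] [CommRing Rb]

theorem StarData.Ψ_algebraMap (D : StarData 𝒜 𝔹 Rb) (c : 𝒜) :
    D.Ψ (algebraMap 𝒜 𝔹 c) = D.β c • (1 : Matrix (Fin 2) (Fin 2) Rb) := by
  rw [Algebra.algebraMap_eq_smul_one, D.Ψ_smul, map_one]

theorem StarData.β_τ_of_ker (D : StarData 𝒜 𝔹 Rb) (x : 𝔹) (hx : D.Ψ x = 0) :
    D.β (D.τ x) = 0 := by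
  have h1 := congrArg D.Ψ (D.add_st x)
  rw [map_add, D.Ψ_st, hx, Matrix.adjugate_zero, add_zero, D.Ψ_algebraMap] at h1
  have := congrFun (congrFun h1 0) 0
  simpa using this.symm

/-- `x * st x` is a scalar -/
theorem StarData.exists_mul_st (D : StarData 𝒜 𝔹 Rb) (x : 𝔹) :
    ∃ ν : 𝒜, x * D.st x = algebraMap 𝒜 𝔹 ν ∧ (D.Ψ x = 0 → D.β ν = 0) := by
  obtain ⟨u, hu⟩ := D.two.exists_left_inv
  have h1 : D.st (x * D.st x) = x * D.st x := by rw [D.st_mul, D.st_st]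
  have h2 := D.add_st (x * D.st x)
  rw [h1] at h2
  refine ⟨u * D.τ (x * D.st x), ?_, ?_⟩
  · rw [map_mul, ← h2, ← two_mul, ← mul_assoc]
    have : algebraMap 𝒜 𝔹 u * 2 = 1 := by
      have := congrArg (algebraMap 𝒜 𝔹) hu
      rwa [map_mul, map_ofNat, map_one] at this
    rw [this, one_mul]
  · intro hx
    rw [map_mul, D.β_τ_of_ker _ (by rw [map_mul, hx, zero_mul]), mul_zero]

/-- (MA1) the kernel of `Ψ` is nil -/
theorem StarData.isNilpotent_of_mem_ker (D : StarData 𝒜 𝔹 Rb) (x : 𝔹) (hx : D.Ψ x = 0) :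
    IsNilpotent x := by
  obtain ⟨ν, hν, hν0⟩ := D.exists_mul_st x
  have hνJ : ν ∈ RingHom.ker D.β := hν0 hx
  have htJ : D.τ x ∈ RingHom.ker D.β := D.β_τ_of_ker x hx
  set t := D.τ x with ht
  have hsq : x * x = t • x - algebraMap 𝒜 𝔹 ν := by
    have h1 : D.st x = algebraMap 𝒜 𝔹 t - x := eq_sub_of_add_eq' (D.add_st x)
    rw [h1, mul_sub] at hν
    rw [← hν, Algebra.smul_def, Algebra.commutes]
    abel
  have key : ∀ k : ℕ, ∃ u ∈ (RingHom.ker D.β) ^ k, ∃ v ∈ (RingHom.ker D.β) ^ k,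
      x ^ (2 * k) = u • x + algebraMap 𝒜 𝔹 v := by
    intro k
    induction k with
    | zero =>
      refine ⟨0, Ideal.zero_mem _, 1, by simp, by simp⟩
    | succ k ih =>
      obtain ⟨u, hu, v, hv, huv⟩ := ih
      refine ⟨u * t * t - u * ν + v * t, ?_, -(u * t * ν + v * ν), ?_, ?_⟩
      · rw [pow_succ]
        refine Ideal.add_mem _ (Ideal.sub_mem _ ?_ ?_) ?_
        · exact Ideal.mul_mem_mul (Ideal.mul_mem_right _ _ hu) htJ
        · exact Ideal.mul_mem_mul hu hνJ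
        · exact Ideal.mul_mem_mul hv htJ
      · rw [pow_succ]
        refine Ideal.neg_mem_iff _ |>.mpr (Ideal.add_mem _ ?_ ?_)
        · exact Ideal.mul_mem_mul (Ideal.mul_mem_right _ _ hu) hνJ
        · exact Ideal.mul_mem_mul hv hνJ
      · have h2 : x ^ (2 * (k + 1)) = x ^ (2 * k) * (x * x) := by
          rw [mul_add, mul_one, pow_add, pow_two]
        rw [h2, huv, hsq]
        have h3 : (u • x) * (t • x) = (u * t) • (t • x - algebraMap 𝒜 𝔹 ν) := by
          rw [smul_mul_smul_comm, hsq]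
        rw [add_mul, mul_sub, mul_sub, h3]
        simp only [Algebra.smul_def, map_mul, map_add, map_sub, map_neg]
        have hc : ∀ c : 𝒜, x * algebraMap 𝒜 𝔹 c = algebraMap 𝒜 𝔹 c * x :=
          fun c => (Algebra.commutes c x).symm
        simp only [mul_assoc, hc, mul_sub, sub_mul, add_mul]
        abel_nf
  obtain ⟨n, hn⟩ := D.nil
  obtain ⟨u, hu, v, hv, huv⟩ := key n
  refine ⟨2 * n, ?_⟩
  rw [huv, Algebra.smul_def, hn u hu, hn v hv, zero_mul, add_zero]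

theorem StarData.st_one (D : StarData 𝒜 𝔹 Rb) : D.st 1 = 1 := by
  have h1 := D.st_mul (D.st 1) 1
  rw [mul_one, D.st_st, mul_one] at h1
  exact h1.symm

theorem StarData.st_sub (D : StarData 𝒜 𝔹 Rb) (x y : 𝔹) : D.st (x - y) = D.st x - D.st y := by
  have h1 := D.st_add (x - y) y
  rw [sub_add_cancel] at h1
  exact eq_sub_of_add_eq h1.symm

theorem StarData.st_algebraMap (D : StarData 𝒜 𝔹 Rb) (c : 𝒜) :
    D.st (algebraMap 𝒜 𝔹 c) = algebraMap 𝒜 𝔹 c := by
  rw [Algebra.algebraMap_eq_smul_one, D.st_smul, D.st_one]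

theorem StarData.algebraMap_isNilpotent (D : StarData 𝒜 𝔹 Rb) (j : 𝒜) (hj : D.β j = 0) :
    IsNilpotent (algebraMap 𝒜 𝔹 j) := by
  obtain ⟨n, hn⟩ := D.nil
  refine ⟨n, ?_⟩
  rw [← map_pow]
  exact hn _ (Ideal.pow_mem_pow hj n)

/-- (MA2) the idempotent -/
theorem StarData.exists_idem (D : StarData 𝒜 𝔹 Rb) :
    ∃ e : 𝔹, e * e = e ∧ D.st e = 1 - e ∧ D.Ψ e = !![1, 0; 0, 0] ∧
      (∀ y, ∃ r : 𝒜, e * y * e = r • e) ∧ (∀ y, ∃ r : 𝒜, (1 - e) * y * (1 - e) = r • (1 - e)) := by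
  have hid : IsIdempotentElem (!![1, 0; 0, 0] : Matrix (Fin 2) (Fin 2) Rb) := by
    show _ * _ = _
    ext i j
    fin_cases i <;> fin_cases j <;> simp [Matrix.mul_apply, Fin.sum_univ_two]
  obtain ⟨e, he, hΨe⟩ := exists_isIdempotentElem_eq_of_ker_isNilpotent D.Ψ
    (fun x hx => D.isNilpotent_of_mem_ker x hx) _ (D.Ψ_surj _) hid
  have hee : e * e = e := he
  set t := D.τ e with ht
  have hst : D.st e = algebraMap 𝒜 𝔹 t - e := eq_sub_of_add_eq' (D.add_st e)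
  have hβt : D.β t = 1 := by
    have h1 := congrArg D.Ψ (D.add_st e)
    rw [map_add, D.Ψ_st, hΨe, D.Ψ_algebraMap] at h1
    have := congrFun (congrFun h1 0) 0
    simpa [Matrix.adjugate_fin_two] using this.symm
  set j := t - 1 with hj
  have hβj : D.β j = 0 := by rw [hj, map_sub, hβt, map_one, sub_self]
  have htj : algebraMap 𝒜 𝔹 t = 1 + algebraMap 𝒜 𝔹 j := by
    rw [hj, map_sub, map_one]; abel
  set Jb := algebraMap 𝒜 𝔹 j with hJb
  have hJc : ∀ x : 𝔹, x * Jb = Jb * x := fun x => (Algebra.commutes j x).symm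
  -- `e * st e = j e`
  have h1 : e * D.st e = Jb * e := by
    rw [hst, htj, mul_sub, mul_add, mul_one, hee, hJc]; abel
  have h2 : D.st (e * D.st e) = e * D.st e := by rw [D.st_mul, D.st_st]
  have h3 : D.st (Jb * e) = Jb * (1 + Jb - e) := by
    rw [D.st_mul, hJb, D.st_algebraMap, ← hJb, hst, htj, hJc]
  have h4 : Jb * ((1 - 2 * e) * (1 + Jb * (1 - 2 * e))) = 0 := by
    have h5 : Jb * e = Jb * (1 + Jb - e) := by rw [← h3, ← h1, h2]
    have h6 : (1 - 2 * e) * (1 - 2 * e) = 1 := by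
      have : (1 - 2 * e) * (1 - 2 * e) = 1 - 4 * e + 4 * (e * e) := by noncomm_ring
      rw [this, hee]; abel
    have h7 : (1 - 2 * e) * (1 + Jb * (1 - 2 * e)) = 1 + Jb - 2 * e := by
      rw [mul_add, mul_one, ← mul_assoc, hJc, mul_assoc, h6, mul_one]; abel
    rw [h7]
    have : Jb * (1 + Jb - 2 * e) = Jb * (1 + Jb - e) - Jb * e := by
      rw [two_mul]; noncomm_ring
    rw [this, ← h5, sub_self]
  have hu1 : IsUnit (1 - 2 * e) := by
    have h6 : (1 - 2 * e) * (1 - 2 * e) = 1 := by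
      have : (1 - 2 * e) * (1 - 2 * e) = 1 - 4 * e + 4 * (e * e) := by noncomm_ring
      rw [this, hee]; abel
    exact ⟨⟨1 - 2 * e, 1 - 2 * e, h6, h6⟩, rfl⟩
  have hu2 : IsUnit (1 + Jb * (1 - 2 * e)) := by
    apply IsNilpotent.isUnit_one_add
    have hn := D.algebraMap_isNilpotent j hβj
    exact Commute.isNilpotent_mul_right (hJc _).symm hn
  have hJ0 : Jb = 0 := by
    have := (hu1.mul hu2).mul_left_eq_zero.mp h4
    exact this
  have hst' : D.st e = 1 - e := by rw [hst, htj, hJ0, add_zero]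
  have hst'' : D.st (1 - e) = e := by rw [D.st_sub, D.st_one, hst']; abel
  refine ⟨e, hee, hst', hΨe, ?_, ?_⟩
  · intro y
    refine ⟨D.τ (e * y * e), ?_⟩
    have h5 := D.add_st (e * y * e)
    rw [D.st_mul, D.st_mul, hst'] at h5
    have h6 := congrArg (fun z => e * z) h5
    rw [Algebra.smul_def, Algebra.commutes, ← h6]
    have : e * (1 - e) = 0 := by rw [mul_sub, mul_one, hee, sub_self]
    rw [mul_add, ← mul_assoc e (1 - e), this, zero_mul, add_zero, ← mul_assoc, ← mul_assoc, hee]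
  · intro y
    refine ⟨D.τ ((1 - e) * y * (1 - e)), ?_⟩
    have h5 := D.add_st ((1 - e) * y * (1 - e))
    rw [D.st_mul, D.st_mul, hst''] at h5
    have h6 := congrArg (fun z => (1 - e) * z) h5
    rw [Algebra.smul_def, Algebra.commutes, ← h6]
    have h7 : (1 - e) * e = 0 := by rw [sub_mul, one_mul, hee, sub_self]
    have h8 : (1 - e) * (1 - e) = 1 - e := by
      rw [mul_sub, mul_one, h7, sub_zero]
    rw [mul_add, ← mul_assoc (1 - e) e, h7, zero_mul, add_zero, ← mul_assoc, ← mul_assoc, h8]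

end Fermat.Agent.S32Lib
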