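import Fermat.Agent.S32.MatIdem

set_option autoImplicit false

namespace Fermat.Agent.S32Lib

variable {𝒜 𝔹 Rb : Type} [CommRing 𝒜] [Ring 𝔹] [Algebra 𝒜 𝔹] [CommRing Rb]

/-- elements of `1 + ker β` are invertible in `𝔹` -/
theorem StarData.exists_inv (D : StarData 𝒜 𝔹 Rb) (u : 𝒜) (hu : D.β u = 1) :
    ∃ u' : 𝒜, D.β u' = 1 ∧ algebraMap 𝒜 𝔹 (u' * u) = 1 := by
  obtain ⟨n, hn⟩ := D.nil
  have hx : D.β (1 - u) = 0 := by rw [map_sub, map_one, hu, sub_self]
  have h1 : (∑ i ∈ Finset.range (n + 1), (1 - u) ^ i) * u = 1 - (1 - u) ^ (n + 1) := by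
    have := geom_sum_mul (1 - u) (n + 1)
    have h2 : (1 - u) - 1 = -u := by ring
    rw [h2, mul_neg] at this
    linear_combination -this
  refine ⟨∑ i ∈ Finset.range (n + 1), (1 - u) ^ i, ?_, ?_⟩
  · have h2 := congrArg D.β h1
    rw [map_mul, hu, mul_one, map_sub, map_one, map_pow, hx, zero_pow (Nat.succ_ne_zero n),
      sub_zero] at h2
    exact h2
  · rw [h1, map_sub, map_one]
    have h3 : (1 - u) ^ (n + 1) ∈ (RingHom.ker D.β) ^ n :=
      Ideal.pow_le_pow_right (Nat.le_succ n) (Ideal.pow_mem_pow hx (n + 1))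
    rw [hn _ h3, sub_zero]

/-- (MB) matrix units -/
theorem StarData.exists_units (D : StarData 𝒜 𝔹 Rb) :
    ∃ e b c : 𝔹, e * e = e ∧ e * b = b ∧ b * e = 0 ∧ c * e = c ∧ e * c = 0 ∧ b * c = e ∧
      c * b = 1 - e ∧ D.Ψ e = !![1, 0; 0, 0] ∧ D.Ψ b = !![0, 1; 0, 0] ∧ D.Ψ c = !![0, 0; 1, 0] ∧
      ∀ x, ∃ α₁ α₂ α₃ α₄ : 𝒜, x = α₁ • e + α₂ • b + α₃ • c + α₄ • (1 - e) := by
  obtain ⟨e, hee, -, hΨe, hce, hcf⟩ := D.exists_idem
  set f := 1 - e with hf
  have hef : e * f = 0 := by rw [hf, mul_sub, mul_one, hee, sub_self]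
  have hfe : f * e = 0 := by rw [hf, sub_mul, one_mul, hee, sub_self]
  have hff : f * f = f := by
    conv_lhs => rw [hf, sub_mul, one_mul, hef, sub_zero]
  have hΨf : D.Ψ f = !![0, 0; 0, 1] := by
    rw [hf, map_sub, map_one, hΨe]
    ext i j
    fin_cases i <;> fin_cases j <;> simp
  obtain ⟨b0, hb0⟩ := D.Ψ_surj !![0, 1; 0, 0]
  obtain ⟨c0, hc0⟩ := D.Ψ_surj !![0, 0; 1, 0]
  set b := e * b0 * f with hb
  set c1 := f * c0 * e with hc1
  have hΨb : D.Ψ b = !![0, 1; 0, 0] := by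
    rw [hb, map_mul, map_mul, hΨe, hΨf, hb0]
    ext i j
    fin_cases i <;> fin_cases j <;> simp [Matrix.mul_apply, Fin.sum_univ_two]
  have hΨc1 : D.Ψ c1 = !![0, 0; 1, 0] := by
    rw [hc1, map_mul, map_mul, hΨe, hΨf, hc0]
    ext i j
    fin_cases i <;> fin_cases j <;> simp [Matrix.mul_apply, Fin.sum_univ_two]
  have heb : e * b = b := by rw [hb, ← mul_assoc, ← mul_assoc, hee]
  have hbe : b * e = 0 := by rw [hb, mul_assoc, hfe, mul_zero]
  have hbf : b * f = b := by rw [hb, mul_assoc, hff]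
  have hc1e : c1 * e = c1 := by rw [hc1, mul_assoc, hee]
  have hec1 : e * c1 = 0 := by rw [hc1, ← mul_assoc, ← mul_assoc, hef, zero_mul, zero_mul]
  have hfc1 : f * c1 = c1 := by rw [hc1, ← mul_assoc, ← mul_assoc, hff]
  obtain ⟨u, hu⟩ := hce (b0 * f * c0)
  have hbc1 : b * c1 = u • e := by
    rw [← hu, hb, hc1]
    have : e * b0 * f * (f * c0 * e) = e * b0 * (f * f) * c0 * e := by noncomm_ring
    rw [this, hff]
    noncomm_ring
  have hβu : D.β u = 1 := by
    have h1 := congrArg D.Ψ hbc1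
    rw [map_mul, hΨb, hΨc1, D.Ψ_smul, hΨe] at h1
    have := congrFun (congrFun h1 0) 0
    simpa [Matrix.mul_apply, Fin.sum_univ_two] using this.symm
  obtain ⟨u', hβu', hu'⟩ := D.exists_inv u hβu
  set c := u' • c1 with hc
  have hΨc : D.Ψ c = !![0, 0; 1, 0] := by
    rw [hc, D.Ψ_smul, hβu', one_smul, hΨc1]
  have hcE : c * e = c := by rw [hc, smul_mul_assoc, hc1e]
  have hec : e * c = 0 := by rw [hc, mul_smul_comm, hec1, smul_zero]
  have hfc : f * c = c := by rw [hc, mul_smul_comm, hfc1]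
  have hbc : b * c = e := by
    rw [hc, mul_smul_comm, hbc1, smul_smul, Algebra.smul_def, hu', one_mul]
  obtain ⟨w, hw⟩ := hcf (c * b)
  have hcb0 : c * b = w • f := by
    rw [← hw]
    have : f * (c * b) * f = (f * c) * (b * f) := by noncomm_ring
    rw [this, hfc, hbf]
  have hβw : D.β w = 1 := by
    have h1 := congrArg D.Ψ hcb0
    rw [map_mul, hΨb, hΨc, D.Ψ_smul, hΨf] at h1
    have := congrFun (congrFun h1 1) 1
    simpa [Matrix.mul_apply, Fin.sum_univ_two] using this.symm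
  obtain ⟨w', -, hw'⟩ := D.exists_inv w hβw
  have hcb : c * b = f := by
    have h1 : (c * b) * (c * b) = c * b := by
      have : (c * b) * (c * b) = c * (b * c) * b := by noncomm_ring
      rw [this, hbc, hcE]
    rw [hcb0, smul_mul_smul_comm, hff] at h1
    -- `w * w • f = w • f`
    have h2 : w' • ((w * w) • f) = w' • (w • f) := by rw [h1]
    rw [smul_smul, smul_smul, ← mul_assoc] at h2
    rw [Algebra.smul_def, Algebra.smul_def, map_mul, hw', one_mul, one_mul,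
      ← Algebra.smul_def] at h2
    rw [hcb0, h2]
  refine ⟨e, b, c, hee, heb, hbe, hcE, hec, hbc, hcb, hΨe, hΨb, hΨc, ?_⟩
  intro x
  obtain ⟨α₁, h1⟩ := hce x
  obtain ⟨α₂, h2⟩ := hce (x * c)
  obtain ⟨α₃, h3⟩ := hce (b * x)
  obtain ⟨α₄, h4⟩ := hcf x
  refine ⟨α₁, α₂, α₃, α₄, ?_⟩
  have hx : x = e * x * e + e * x * f + f * x * e + f * x * f := by
    rw [hf]; noncomm_ring
  have h5 : e * x * f = α₂ • b := by
    rw [← hcb]
    have : e * x * (c * b) = e * (x * (c * e)) * (e * b) := by rw [hcE, heb]; noncomm_ring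
    rw [this]
    have : e * (x * (c * e)) * (e * b) = (e * (x * c) * e) * (e * b) := by noncomm_ring
    rw [this, h2, heb, smul_mul_assoc, heb]
  have h6 : f * x * e = α₃ • c := by
    rw [← hcb]
    have : c * b * x * e = (c * e) * (e * b) * x * e := by rw [hcE, heb]
    rw [this]
    have : (c * e) * (e * b) * x * e = c * e * (e * (b * x) * e) := by noncomm_ring
    rw [this, h3, mul_smul_comm, mul_assoc, hee, hcE]
  conv_lhs => rw [hx, h1, h5, h6, h4]

end Fermat.Agent.S32Lib
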